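import Fermat.Agent.Neukirch.Approximation
import Fermat.Agent.GalCoh.HasseH2
import Fermat.Agent.GalCoh.UnrLocal

/-!
# Decomposition groups of distinct places meet trivially

The theorem of F. K. Schmidt in Galois form: the places of the algebraic closure of `ℚ` over the
primes are the conjugates of the chosen ones, and an automorphism in the decomposition groups of
two distinct ones is the identity.
-/

set_option autoImplicit false
set_option linter.unusedSectionVars false

noncomputable section

namespace Fermat.Agent.Neukirch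

open FA.GalCoh
open scoped Pointwise

local notation "Qb" => AlgebraicClosure ℚ

/-- The absolute value at the conjugate by `g` of the chosen place over `q`. -/
def absAt (q : ℕ) [Fact q.Prime] (g : GQ) : AbsoluteValue Qb ℝ where
  toFun x := ‖padicEmbedding q (g⁻¹ x)‖
  map_mul' x y := by rw [map_mul, map_mul, norm_mul]
  nonneg' _ := norm_nonneg _
  eq_zero' x := by rw [norm_eq_zero, _root_.map_eq_zero, EmbeddingLike.map_eq_zero_iff]
  add_le' x y := by
    rw [map_add, map_add]
    exact norm_add_le _ _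

variable {q : ℕ} [hq : Fact q.Prime]

theorem absAt_apply (g : GQ) (x : Qb) : absAt q g x = ‖padicEmbedding q (g⁻¹ x)‖ := rfl

theorem absAt_nonarch (g : GQ) : IsNonarchimedean (absAt q g) := fun x y => by
  simp only [absAt_apply, map_add]
  exact IsUltrametricDist.norm_add_le_max _ _

theorem absAt_natCast (g : GQ) (n : ℕ) : absAt q g n = ‖(n : PadicAlgCl q)‖ := by
  rw [absAt_apply, map_natCast, map_natCast]

theorem absAt_isNontrivial (g : GQ) : (absAt q g).IsNontrivial :=
  ⟨q, Nat.cast_ne_zero.2 hq.out.ne_zero, by rw [absAt_natCast]; exact norm_q_lt_one.ne⟩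

/-- The decomposition group of the conjugate by `g` of the chosen place over `q`. -/
def decompAt (q : ℕ) [Fact q.Prime] (g : GQ) : Subgroup GQ :=
  (loc q).range.map (MulAut.conj g).toMonoidHom

theorem mem_decompAt {g σ : GQ} : σ ∈ decompAt q g ↔ g⁻¹ * σ * g ∈ (loc q).range := by
  rw [decompAt, Subgroup.mem_map_equiv, MulAut.conj_symm_apply]

theorem conj_loc_mem (g : GQ) (τ : LG q) : g * loc q τ * g⁻¹ ∈ decompAt q g :=
  mem_decompAt.2 ⟨τ, by group⟩

theorem isClosed_decompAt (g : GQ) : IsClosed (decompAt q g : Set GQ) := by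
  have h : IsClosed (((loc q).range : Subgroup GQ) : Set GQ) :=
    (isCompact_range continuous_loc).isClosed
  have heq : (decompAt q g : Set GQ)
      = (fun σ : GQ => g⁻¹ * σ * g) ⁻¹' ((loc q).range : Subgroup GQ) :=
    Set.ext fun σ => mem_decompAt
  rw [heq]
  exact h.preimage ((continuous_const.mul continuous_id).mul continuous_const)

theorem absAt_apply_of_mem {g σ : GQ} (h : σ ∈ decompAt q g) (x : Qb) :
    absAt q g (σ x) = absAt q g x := by
  rw [absAt_apply, absAt_apply,
    show g⁻¹ (σ x) = (g⁻¹ * σ * g) (g⁻¹ x) by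
      rw [AlgEquiv.mul_apply, AlgEquiv.mul_apply]
      exact congrArg (fun y => g⁻¹ (σ y)) (g.apply_symm_apply x).symm]
  exact norm_iota_of_mem (range_loc (q := q) ▸ mem_decompAt.1 h) _

variable {q' : ℕ} [hq' : Fact q'.Prime]

/-- Equivalent absolute values lie over the same prime and are conjugate by the decomposition
group. -/
theorem eq_of_isEquiv {g g' : GQ} (h : (absAt q g).IsEquiv (absAt q' g')) :
    q = q' ∧ g⁻¹ * g' ∈ (loc q).range := by
  have hqq : q = q' := by
    by_contra hne
    have h1 : absAt q' g' q < 1 :=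
      (AbsoluteValue.isEquiv_iff_lt_one_iff.1 h (q : Qb)).1 (by
        rw [absAt_natCast]; exact norm_q_lt_one)
    rw [absAt_natCast, norm_natCast_eq_one fun hd => hne
      ((Nat.prime_dvd_prime_iff_eq hq'.out hq.out).1 hd).symm] at h1
    exact lt_irrefl _ h1
  subst hqq
  refine ⟨rfl, ?_⟩
  rw [range_loc]
  refine MulAction.mem_stabilizer_iff.2 (SetLike.ext fun y => ?_)
  rw [ValuationSubring.mem_pointwise_smul_iff_inv_smul_mem, mem_padicPlace_iff, mem_padicPlace_iff,
    ← NNReal.coe_le_coe, ← NNReal.coe_le_coe, coe_nnnorm, coe_nnnorm, NNReal.coe_one]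
  have h1 := h (g y) 1
  rw [map_one, map_one, absAt_apply, absAt_apply, show g⁻¹ (g y) = y from g.symm_apply_apply y]
    at h1
  rw [h1, AlgEquiv.smul_def, mul_inv_rev, inv_inv, AlgEquiv.mul_apply]

/-- **F. K. Schmidt**: the decomposition groups of two distinct places meet trivially. -/
theorem eq_of_mem_decompAt {g g' σ : GQ} (h : σ ∈ decompAt q g) (h' : σ ∈ decompAt q' g')
    (hσ : σ ≠ 1) : q = q' ∧ g⁻¹ * g' ∈ (loc q).range := by
  by_contra hne
  refine hσ (AlgEquiv.ext fun α => ?_)
  have hiter : ∀ (k : ℕ) (x : Qb), ((σ.toRingEquiv ^ k) x) = (σ ^ k) x := fun k => by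
    induction k with
    | zero => exact fun x => rfl
    | succ k ih => intro x; rw [pow_succ, pow_succ]; exact ih (σ x)
  refine eq_of_preserves (absAt_nonarch g) (absAt_nonarch g') (absAt_isNontrivial g)
    (absAt_isNontrivial g') (fun he => hne (eq_of_isEquiv he)) σ.toRingEquiv (fun x => ?_)
    (absAt_apply_of_mem h) (absAt_apply_of_mem h') α
  refine Set.Finite.subset ((minpoly ℚ x).rootSet_finite Qb) ?_
  rintro _ ⟨k, rfl⟩
  dsimp only
  rw [hiter, Polynomial.mem_rootSet_of_ne
    (minpoly.ne_zero (Algebra.IsAlgebraic.isAlgebraic x).isIntegral),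
    Polynomial.aeval_algHom_apply, minpoly.aeval, map_zero]

theorem decompAt_inf_eq_bot {g g' : GQ} (h : q ≠ q' ∨ g⁻¹ * g' ∉ (loc q).range) :
    decompAt q g ⊓ decompAt q' g' = ⊥ :=
  eq_bot_iff.2 fun _ hσ => Subgroup.mem_bot.2 <| by_contra fun hne =>
    h.elim (fun h => h (eq_of_mem_decompAt hσ.1 hσ.2 hne).1)
      fun h => h (eq_of_mem_decompAt hσ.1 hσ.2 hne).2

/-- An element moving a non-trivial element of a decomposition group into it lies in it. -/
theorem mem_decompAt_of_conj {g σ τ : GQ} (h : σ ∈ decompAt q g) (hσ : σ ≠ 1)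
    (h' : τ * σ * τ⁻¹ ∈ decompAt q g) : τ ∈ decompAt q g := by
  have h1 : σ ∈ decompAt q (τ⁻¹ * g) := mem_decompAt.2 (by
    have := mem_decompAt.1 h'
    simpa [mul_assoc] using this)
  have h2 := (eq_of_mem_decompAt h h1 hσ).2
  refine mem_decompAt.2 ?_
  have h3 := inv_mem h2
  simpa [mul_assoc] using h3

theorem frobL_ne_one : (frobL q : LG q) ≠ 1 := fun h => by
  have h1 := frobExp_frobL (q := q) (N := 2)
  rw [h, ← pow_zero (frobL q), frobExp_frobL_pow, Nat.cast_zero] at h1
  exact zero_ne_one h1

theorem exists_mem_decompAt_ne_one (g : GQ) : ∃ σ ∈ decompAt q g, σ ≠ 1 :=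
  ⟨_, conj_loc_mem g (frobL q), fun h => frobL_ne_one (loc_injective
    (by rw [map_one]; exact conj_eq_one_iff.1 h))⟩

/-- **Decomposition groups are their own normalisers.** -/
theorem normalizer_decompAt (g : GQ) :
    Subgroup.normalizer (decompAt q g : Set GQ) = decompAt q g := by
  refine le_antisymm (fun τ hτ => ?_) Subgroup.le_normalizer
  obtain ⟨σ, hσ, hσ1⟩ := exists_mem_decompAt_ne_one (q := q) g
  exact mem_decompAt_of_conj hσ hσ1 ((Subgroup.mem_normalizer_iff.1 hτ σ).1 hσ)

/-- The centraliser of a non-trivial element of a decomposition group lies in it. -/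
theorem mem_decompAt_of_commute {g σ τ : GQ} (h : σ ∈ decompAt q g) (hσ : σ ≠ 1)
    (hc : Commute τ σ) : τ ∈ decompAt q g :=
  mem_decompAt_of_conj h hσ (by rw [hc.eq, mul_inv_cancel_right]; exact h)

end Fermat.Agent.Neukirch
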