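import Fermat.Agent.GalCoh.UnrCoh
import Fermat.Agent.GalCoh.HasseH2
import Fermat.Agent.GolodCriterion.LocalClasses

/-!
# Unramified cocycles split

A two-cocycle with values in `ℤ/p` inflated from an unramified finite quotient of an open subgroup
of the Galois group of `ℚ_q` is a coboundary.
-/

set_option autoImplicit false
set_option linter.unusedSectionVars false

noncomputable section

namespace Fermat.Agent.Neukirch

open FA.GalCoh

variable {q : ℕ} [hq : Fact q.Prime] {p : ℕ} [hp : Fact p.Prime]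

/-- A cochain on a level extends by zero to a level constant one. -/
theorem exists_lc_extend {D : Subgroup (LG q)} (hD : D ∈ (LL q).carrier) {b : D → ZMod p}
    (hb : LC₁ ((LL q).sub D) b) :
    ∃ b' : LG q → ZMod p, LC₁ (LL q) b' ∧ ∀ τ (h : τ ∈ D), b' τ = b ⟨τ, h⟩ := by
  classical
  obtain ⟨_, ⟨N, hN, rfl⟩, hs⟩ := hb
  refine ⟨fun τ => if h : τ ∈ D then b ⟨τ, h⟩ else 0,
    ⟨N ⊓ D, (LL q).inf_mem hN hD, fun g s hsm => ?_⟩, fun τ h => dif_pos h⟩
  dsimp only
  by_cases hg : g ∈ D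
  · rw [dif_pos hg, dif_pos (mul_mem hg hsm.2)]
    exact hs ⟨g, hg⟩ ⟨s, hsm.2⟩ (Subgroup.mem_subgroupOf.2 hsm.1)
  · rw [dif_neg hg, dif_neg fun h => hg ((Subgroup.mul_mem_cancel_right D hsm.2).1 h)]

/-- **Unramified cocycles split.** -/
theorem killedOn_of_unr {D : Subgroup (LG q)} (hD : D ∈ (LL q).carrier) {X : Type} [Group X]
    [Finite X] (φ : D →* X) (hlc : LC₁ ((LL q).sub D) φ)
    (hunr : ∀ τ : D, (τ : LG q) ∈ inertL q → φ τ = 1) (z : X × X → ZMod p)
    (hz : ∀ a b c, a ∈ φ.range → b ∈ φ.range → c ∈ φ.range →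
      z (a * b, c) + z (a, b) = z (b, c) + z (a, b * c))
    (Z : LG q × LG q → ZMod p)
    (hZ : ∀ τ τ' : D, Z ((τ : LG q), (τ' : LG q)) = z (φ τ, φ τ')) : KilledOn Z D (LL q) := by
  classical
  obtain ⟨N, hN, u, hulc, -, hker, w, hw⟩ := GolodCriterion.exists_unr_quotient hD φ hlc hunr
    (Nat.mul_pos (Nat.card_pos (α := X)) hp.out.pos)
  obtain ⟨⟨_, τ₀, rfl⟩, hgen⟩ := IsCyclic.exists_generator (α := u.range)
  set d := orderOf (u τ₀)
  set s := φ τ₀
  set n₀ := orderOf s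
  have hnd : n₀ * p ∣ d := by
    refine (Nat.mul_dvd_mul_right (orderOf_dvd_natCard s) p).trans (hw.trans ?_)
    obtain ⟨i, hi⟩ := hgen ⟨u w, w, rfl⟩
    have hi' : u τ₀ ^ i = u w := congrArg Subtype.val hi
    rw [← hi']
    exact orderOf_dvd_of_pow_eq_one (by
      rw [← zpow_natCast, ← zpow_mul, mul_comm, zpow_mul, zpow_natCast, pow_orderOf_eq_one,
        one_zpow])
  have hfin : IsOfFinOrder (u τ₀) := isOfFinOrder_of_finite _
  have hk : ∀ v : u.range, ∃ k : ℕ, u τ₀ ^ k = (v : Multiplicative (ZMod N)) := fun v => by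
    obtain ⟨i, hi⟩ := hgen v
    obtain ⟨k, hk⟩ := hfin.mem_powers_iff_mem_zpowers.2 ⟨i, congrArg Subtype.val hi⟩
    exact ⟨k, hk⟩
  choose k hk using hk
  let kk : D → ℕ := fun x => k ⟨u x, x, rfl⟩
  have hφ : ∀ x, φ x = s ^ kk x := fun x => by
    have h1 : (τ₀ ^ kk x)⁻¹ * x ∈ u.ker := MonoidHom.mem_ker.2 (by
      rw [map_mul, map_inv, map_pow, hk ⟨u x, x, rfl⟩, inv_mul_cancel])
    have h2 := MonoidHom.mem_ker.1 (hker h1)
    rw [map_mul, map_inv, map_pow, inv_mul_eq_one] at h2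
    exact h2.symm
  have hadd : ∀ x y, kk (x * y) % (n₀ * p) = (kk x + kk y) % (n₀ * p) := fun x y => by
    have h1 : u τ₀ ^ kk (x * y) = u τ₀ ^ (kk x + kk y) := by
      rw [pow_add]
      simp only [kk]
      rw [hk, hk, hk]
      exact map_mul u x y
    exact (pow_eq_pow_iff_modEq.1 h1).of_dvd hnd
  let zn : ℕ → ℕ → ZMod p := fun i j => z (s ^ i, s ^ j)
  have hs : s ∈ φ.range := ⟨τ₀, rfl⟩
  have hper : ∀ i, zn (i + n₀) 1 = zn i 1 := fun i => by
    simp only [zn]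
    rw [pow_add, pow_orderOf_eq_one, mul_one]
  have hcoc : ∀ i j l, zn (i + j) l + zn i j = zn j l + zn i (j + l) := fun i j l => by
    simp only [zn]
    rw [pow_add, pow_add]
    exact hz _ _ _ (pow_mem hs i) (pow_mem hs j) (pow_mem hs l)
  let S : ℕ → ZMod p := fun i => ∑ j ∈ Finset.range i, zn j 1
  have hid : ∀ i j, zn i j = S (i + j) - S i - S j + zn 0 0 := fun i j => by
    induction j with
    | zero =>
      have := hcoc i 0 0
      rw [add_zero, add_zero] at this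
      simp only [S, add_zero, Finset.range_zero, Finset.sum_empty, sub_self, zero_add]
      exact add_right_cancel this
    | succ j ih =>
      have := hcoc i j 1
      simp only [S] at ih ⊢
      rw [← add_assoc i j 1, Finset.sum_range_succ _ (i + j), Finset.sum_range_succ _ j]
      rw [ih] at this
      linear_combination -this
  have hmod : ∀ i, S (i % (n₀ * p)) = S i := fun i =>
    sum_periodic_add (f := fun j => zn j 1) hper i
  let b : D → ZMod p := fun x => zn 0 0 - S (kk x)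
  have hblc : LC₁ ((LL q).sub D) b := by
    obtain ⟨M, hM, hs⟩ := hulc
    refine ⟨M, hM, fun g t ht => ?_⟩
    show zn 0 0 - S (k ⟨u (g * t), _⟩) = zn 0 0 - S (k ⟨u g, _⟩)
    exact congrArg (fun v => zn 0 0 - S (k v)) (Subtype.ext (hs g t ht))
  obtain ⟨b', hb', hbb⟩ := exists_lc_extend hD hblc
  refine ⟨b', hb', fun m hm m' hm' => ?_⟩
  have hS : S (kk (⟨m, hm⟩ * ⟨m', hm'⟩)) = S (kk ⟨m, hm⟩ + kk ⟨m', hm'⟩) := by
    rw [← hmod, hadd, hmod]
  have h := hid (kk ⟨m, hm⟩) (kk ⟨m', hm'⟩)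
  rw [hZ ⟨m, hm⟩ ⟨m', hm'⟩, hφ, hφ, hbb m hm, hbb m' hm', hbb (m * m') (mul_mem hm hm')]
  simp only [b, show (⟨m * m', mul_mem hm hm'⟩ : D) = ⟨m, hm⟩ * ⟨m', hm'⟩ from rfl, hS]
  simp only [zn] at h ⊢
  rw [h]
  ring

end Fermat.Agent.Neukirch
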