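import Fermat.Agent.Neukirch.Topology
import Fermat.Agent.Neukirch.Decomposition
import Fermat.Agent.Neukirch.Unramified
import Fermat.Agent.GolodCriterion.Classes
import Fermat.Agent.SolvableOverCyclotomic.Levels

/-!
# The place carrying a transported local class

A class of degree two of an open subgroup `V` of the Galois group of `ℚ_l`, transported along an
injective homomorphism into the absolute Galois group of `ℚ`, is non-zero on all small
neighbourhoods of the image; by the Hasse principle and compactness one place of `ℚ̄` carries it,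
and the class survives on every level containing the preimage of that decomposition group.
-/

set_option autoImplicit false
set_option linter.unusedSectionVars false

noncomputable section

namespace Fermat.Agent.Neukirch

open FA.GalCoh SolvableOverCyclotomic

/-- A class of degree two of an open subgroup of `G_{ℚ_l}` embedded in the Galois group of `ℚ`,
with a normal level of the latter through which the cocycle factors. -/
structure Transport (p l : ℕ) [Fact p.Prime] [Fact l.Prime] where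
  /-- The open subgroup. -/
  V : Subgroup (LG l)
  mem_V : V ∈ (LL l).carrier
  /-- The embedding. -/
  j : V →* GQ
  compat : Compat LQ ((LL l).sub V) j
  inj : Function.Injective j
  j_mem : ∀ a, j a ∈ fixMu (4 * p)
  /-- The cocycle. -/
  Z : ↥(Z2 ((LL l).sub V) (triv V p))
  /-- A level in whose cosets the cocycle is constant. -/
  N : Subgroup (LG l)
  const : ∀ a a' s s' : V, (s : LG l) ∈ N → (s' : LG l) ∈ N → Z.1 (a * s, a' * s') = Z.1 (a, a')
  /-- A normal level of the Galois group of `ℚ`. -/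
  M : Subgroup GQ
  normal_M : M.Normal
  mem_M : M ∈ LQ.carrier
  M_le : M ≤ fixMu (4 * p)
  ker_le : ∀ a, j a ∈ M → (a : LG l) ∈ N

attribute [instance] Transport.normal_M

namespace Transport

variable {p l : ℕ} [hp : Fact p.Prime] [hl : Fact l.Prime] (T : Transport p l)

/-- The embedding modulo the level. -/
def jBar : T.V →* GQ ⧸ T.M := (QuotientGroup.mk' T.M).comp T.j

/-- The subgroup generated by the image and the level. -/
def env : Subgroup GQ := T.jBar.range.comap (QuotientGroup.mk' T.M)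

theorem M_le_env : T.M ≤ T.env := fun x hx => by
  show QuotientGroup.mk' T.M x ∈ T.jBar.range
  rw [QuotientGroup.mk'_apply, (QuotientGroup.eq_one_iff x).2 hx]
  exact one_mem _

theorem env_mem : T.env ∈ LQ.carrier := by
  obtain ⟨F, hF, hle⟩ := T.mem_M
  exact ⟨F, hF, hle.trans T.M_le_env⟩

theorem j_mem_env (a : T.V) : T.j a ∈ T.env := ⟨a, rfl⟩

theorem env_le_fixMu : T.env ≤ fixMu (4 * p) := fun x hx => by
  obtain ⟨a, ha⟩ := hx
  have h1 : (T.j a)⁻¹ * x ∈ T.M := QuotientGroup.eq.1 ha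
  have h2 := mul_mem (T.j_mem a) (T.M_le h1)
  rwa [mul_inv_cancel_left] at h2

/-- The transported cochain. -/
def cochain : GQ × GQ → ZMod p := fun x =>
  T.Z.1 (Function.invFun T.jBar (QuotientGroup.mk' T.M x.1),
    Function.invFun T.jBar (QuotientGroup.mk' T.M x.2))

theorem cochain_eq {x y : GQ} {a b : T.V} (hx : T.jBar a = QuotientGroup.mk' T.M x)
    (hy : T.jBar b = QuotientGroup.mk' T.M y) : T.cochain (x, y) = T.Z.1 (a, b) := by
  have hc : ∀ (c : T.V) (v : GQ), T.jBar c = QuotientGroup.mk' T.M v →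
      ∃ s : T.V, (s : LG l) ∈ T.N ∧ Function.invFun T.jBar (QuotientGroup.mk' T.M v) = c * s :=
    fun c v hv => by
      refine ⟨c⁻¹ * Function.invFun T.jBar (QuotientGroup.mk' T.M v), T.ker_le _ ?_,
        (mul_inv_cancel_left _ _).symm⟩
      rw [← QuotientGroup.eq_one_iff (T.j _)]
      show T.jBar (c⁻¹ * _) = 1
      rw [map_mul, map_inv, Function.invFun_eq ⟨c, hv⟩, hv, inv_mul_cancel]
  obtain ⟨s, hs, hs'⟩ := hc a x hx
  obtain ⟨t, ht, ht'⟩ := hc b y hy
  show T.Z.1 (_, _) = _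
  rw [hs', ht']
  exact T.const a b s t hs ht

theorem cochain_mul_mem {x y s s' : GQ} (hs : s ∈ T.M) (hs' : s' ∈ T.M) :
    T.cochain (x * s, y * s') = T.cochain (x, y) := by
  simp only [cochain, QuotientGroup.mk'_apply, QuotientGroup.mk_mul,
    (QuotientGroup.eq_one_iff s).2 hs, (QuotientGroup.eq_one_iff s').2 hs', mul_one]

theorem cochain_congr {x y x' y' : GQ} (hx : QuotientGroup.mk' T.M x = QuotientGroup.mk' T.M x')
    (hy : QuotientGroup.mk' T.M y = QuotientGroup.mk' T.M y') :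
    T.cochain (x, y) = T.cochain (x', y') := by
  simp only [cochain, hx, hy]

theorem cochain_cocycle {x y w : GQ} (hx : x ∈ T.env) (hy : y ∈ T.env) (hw : w ∈ T.env) :
    T.cochain (x * y, w) + T.cochain (x, y) = T.cochain (y, w) + T.cochain (x, y * w) := by
  obtain ⟨a, ha⟩ := hx
  obtain ⟨b, hb⟩ := hy
  obtain ⟨c, hc⟩ := hw
  have hab : T.jBar (a * b) = QuotientGroup.mk' T.M (x * y) := by rw [map_mul, map_mul, ha, hb]
  have hbc : T.jBar (b * c) = QuotientGroup.mk' T.M (y * w) := by rw [map_mul, map_mul, hb, hc]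
  rw [T.cochain_eq hab hc, T.cochain_eq ha hb, T.cochain_eq hb hc, T.cochain_eq ha hbc]
  exact T.Z.2.2 a b c

/-- The transported class. -/
def glob : ↥(Z2 (LQ.sub T.env) (triv T.env p)) :=
  ⟨fun x => T.cochain (x.1.1, x.2.1),
    ⟨T.M.subgroupOf T.env, ⟨T.M, T.mem_M, rfl⟩, fun g g' s s' hs hs' => by
      show T.cochain (g.1 * s.1, g'.1 * s'.1) = _
      exact T.cochain_mul_mem (Subgroup.mem_subgroupOf.1 hs) (Subgroup.mem_subgroupOf.1 hs')⟩,
    fun g h k => T.cochain_cocycle g.2 h.2 k.2⟩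

/-- The transported class vanishes at a place on the subgroup `H'`. -/
def NullAt (H' : Subgroup GQ) (q : ℕ) [Fact q.Prime] (g : GQ) : Prop :=
  KilledOn (fun x : LG q × LG q =>
    T.cochain (g⁻¹ * loc q x.1 * g, g⁻¹ * loc q x.2 * g)) (hloc H' q g) (LL q)

variable {T}

theorem NullAt.mono {H' H'' : Subgroup GQ} {q : ℕ} [Fact q.Prime] {g : GQ}
    (h : T.NullAt H' q g) (hle : H'' ≤ H') : T.NullAt H'' q g :=
  KilledOn.mono h (hloc_mono hle q g)

theorem NullAt.translate {H' : Subgroup GQ} {q : ℕ} [Fact q.Prime] {g u : GQ}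
    (h : T.NullAt H' q g) (hu : u ∈ H') (huM : u ∈ T.M) : T.NullAt H' q (g * u) := by
  obtain ⟨b, hb, hbd⟩ := h
  have hconj : ∀ τ : LG q, (g * u)⁻¹ * loc q τ * (g * u) = u⁻¹ * (g⁻¹ * loc q τ * g) * u :=
    fun τ => by group
  have hπ : ∀ x : GQ, QuotientGroup.mk' T.M (u⁻¹ * x * u) = QuotientGroup.mk' T.M x := fun x => by
    rw [map_mul, map_mul, map_inv, QuotientGroup.mk'_apply, QuotientGroup.mk'_apply,
      (QuotientGroup.eq_one_iff u).2 huM, inv_one, one_mul, mul_one]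
  have hmem : ∀ τ : LG q, τ ∈ hloc H' q (g * u) → τ ∈ hloc H' q g := fun τ hτ => by
    have h1 := (mem_hloc H').1 hτ
    rw [hconj] at h1
    exact (mem_hloc H').2 ((Subgroup.mul_mem_cancel_left H' (inv_mem hu)).1
      ((Subgroup.mul_mem_cancel_right H' hu).1 h1))
  refine ⟨b, hb, fun m hm m' hm' => ?_⟩
  rw [← hbd m (hmem m hm) m' (hmem m' hm')]
  show T.cochain _ = T.cochain _
  rw [hconj, hconj]
  exact T.cochain_congr (hπ _) (hπ _)

variable (T)

/-- An intermediate level. -/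
def Between (H' : Subgroup GQ) : Prop :=
  H' ∈ LQ.carrier ∧ (∀ a, T.j a ∈ H') ∧ H' ≤ T.env

theorem between_env : T.Between T.env := ⟨T.env_mem, T.j_mem_env, le_rfl⟩

theorem exists_common {α : Type*} (t : Finset α) (P : Subgroup GQ → α → Prop)
    (hmono : ∀ a H' H'', P H' a → H'' ≤ H' → P H'' a)
    (h : ∀ a ∈ t, ∃ H', T.Between H' ∧ P H' a) :
    ∃ H', T.Between H' ∧ ∀ a ∈ t, P H' a := by
  induction t using Finset.cons_induction with
  | empty => exact ⟨T.env, T.between_env, by simp⟩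
  | cons a t ha ih =>
    obtain ⟨H₁, h₁, hP₁⟩ := ih fun i hi => h i (Finset.mem_cons_of_mem hi)
    obtain ⟨H₂, h₂, hP₂⟩ := h a (Finset.mem_cons_self a t)
    refine ⟨H₁ ⊓ H₂, ⟨LQ.inf_mem h₁.1 h₂.1, fun b => ⟨h₁.2.1 b, h₂.2.1 b⟩,
      inf_le_left.trans h₁.2.2⟩, fun i hi => ?_⟩
    rcases Finset.mem_cons.1 hi with rfl | hi
    · exact hmono _ _ _ hP₂ inf_le_right
    · exact hmono _ _ _ (hP₁ i hi) inf_le_left

/-- Outside a finite set of primes the transported class vanishes everywhere. -/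
theorem exists_finset_nullAt :
    ∃ S : Finset Nat.Primes, ∀ q : Nat.Primes, q ∉ S → ∀ g, T.NullAt T.env (q : ℕ) g := by
  obtain ⟨S, hS⟩ := GolodCriterion.exists_finset_inertia_conj_mem T.mem_M
  refine ⟨S, fun q hq g => ?_⟩
  have := LQ.finiteIndex T.mem_M
  let φ : hloc T.env (q : ℕ) g →* GQ ⧸ T.M :=
    (QuotientGroup.mk' T.M).comp (T.env.subtype.comp (locTo T.env (q : ℕ) g))
  refine killedOn_of_unr (hloc_mem T.env_mem g) φ ?_ ?_
    (fun s => T.cochain (s.1.out, s.2.out)) ?_ _ fun τ τ' => ?_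
  · obtain ⟨_, ⟨N, hN, rfl⟩, hle⟩ := compat_locTo (q := (q : ℕ)) (H := T.env) g _
      (show T.M.subgroupOf T.env ∈ (LQ.sub T.env).carrier from ⟨T.M, T.mem_M, rfl⟩)
    refine ⟨_, ⟨N, hN, rfl⟩, fun a s hs => ?_⟩
    rw [map_mul, show φ s = 1 from
      (QuotientGroup.eq_one_iff _).2 (Subgroup.mem_subgroupOf.1 (hle hs)), mul_one]
  · exact fun τ hτ => (QuotientGroup.eq_one_iff _).2 (hS q hq _ hτ g)
  · rintro a b c ⟨x, rfl⟩ ⟨y, rfl⟩ ⟨w, rfl⟩
    have h1 : ∀ s t : GQ ⧸ T.M, ∀ v v' : GQ, (v : GQ ⧸ T.M) = s → (v' : GQ ⧸ T.M) = t →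
        T.cochain (s.out, t.out) = T.cochain (v, v') := fun s t v v' hv hv' =>
      T.cochain_congr (by rw [QuotientGroup.mk'_apply, QuotientGroup.mk'_apply,
        QuotientGroup.out_eq', hv]) (by rw [QuotientGroup.mk'_apply, QuotientGroup.mk'_apply,
        QuotientGroup.out_eq', hv'])
    set vx := (locTo T.env (q : ℕ) g x : GQ)
    set vy := (locTo T.env (q : ℕ) g y : GQ)
    set vw := (locTo T.env (q : ℕ) g w : GQ)
    dsimp only
    rw [h1 (φ x * φ y) (φ w) (vx * vy) vw rfl rfl, h1 (φ x) (φ y) vx vy rfl rfl,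
      h1 (φ y) (φ w) vy vw rfl rfl, h1 (φ x) (φ y * φ w) vx (vy * vw) rfl rfl]
    exact T.cochain_cocycle (SetLike.coe_mem _) (SetLike.coe_mem _) (SetLike.coe_mem _)
  · refine T.cochain_congr ?_ ?_ <;>
    · rw [QuotientGroup.mk'_apply, QuotientGroup.mk'_apply, QuotientGroup.out_eq']
      rfl

/-- **One place carries the transported class.** -/
theorem exists_place (hZ : mk2 ((LL l).sub T.V) (triv T.V p) T.Z ≠ 0) :
    ∃ (q : ℕ) (_ : Fact q.Prime) (g : GQ), ∀ H', T.Between H' → ¬ T.NullAt H' q g := by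
  classical
  by_contra! hall
  obtain ⟨S, hS⟩ := T.exists_finset_nullAt
  have hq : ∀ q : Nat.Primes, ∃ H', T.Between H' ∧ ∀ g, T.NullAt H' (q : ℕ) g := fun q => by
    have hex : ∀ g, ∃ (H' : Subgroup GQ) (U : Subgroup GQ), T.Between H' ∧
        T.NullAt H' (q : ℕ) g ∧ U ∈ LQ.carrier ∧ U ≤ T.M ⊓ H' := fun g => by
      obtain ⟨H', hH', hn⟩ := hall (q : ℕ) inferInstance g
      obtain ⟨U, hU, hle, -⟩ := LQ.exists_normal (LQ.inf_mem T.mem_M hH'.1)
      exact ⟨H', U, hH', hn, hU, hle⟩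
    choose Hg Ug hbg hng hUg hUle using hex
    obtain ⟨t, ht⟩ := isCompact_univ.elim_finite_subcover
      (fun g : GQ => {y | g⁻¹ * y ∈ Ug g}) (fun g => isOpen_setOf_inv_mul_mem g (hUg g))
      (fun y _ => Set.mem_iUnion.2 ⟨y, by
        show y⁻¹ * y ∈ Ug y
        rw [inv_mul_cancel]
        exact one_mem _⟩)
    obtain ⟨H', hH', hP⟩ := T.exists_common t
      (fun H' g => ∀ y, g⁻¹ * y ∈ Ug g → T.NullAt H' (q : ℕ) y)
      (fun a H₁ H₂ hP hle y hy => (hP y hy).mono hle) fun g _ => ⟨Hg g, hbg g, fun y hy => by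
        have h := (hUle g hy)
        rw [show y = g * (g⁻¹ * y) by group]
        exact (hng g).translate h.2 h.1⟩
    refine ⟨H', hH', fun y => ?_⟩
    obtain ⟨g, hg, hy⟩ := Set.mem_iUnion₂.1 (ht (Set.mem_univ y))
    exact hP g hg y hy
  obtain ⟨H', hH', hP⟩ := T.exists_common S (fun H' q => ∀ g, T.NullAt H' (q : ℕ) g)
    (fun q H₁ H₂ hP hle g => (hP g).mono hle) fun q _ => hq q
  have hμ : H' ≤ fixMu (4 * p) := hH'.2.2.trans T.env_le_fixMu
  have h0 : res2t (compat_inclusion hH'.2.2) (mk2 _ (triv T.env p) T.glob) = 0 := by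
    refine hasse_H2 hH'.1 ((tc_fixMu (dvd_mul_right 4 p)).mono hμ)
      ((cycQ p).kumData H' fun h hh => cycloChar_eq_one (dvd_mul_left p 4) (hμ hh)) ?_
    intro q hq' g
    have hnull : T.NullAt H' q g := by
      by_cases hmem : (⟨q, hq'.out⟩ : Nat.Primes) ∈ S
      · exact hP _ hmem g
      · exact (hS _ hmem g).mono hH'.2.2
    obtain ⟨b, hb, hbd⟩ := hnull
    refine (mk2_eq_zero ((LL q).sub (hloc H' q g)) _
      (mapZ2 (compat_locTo g) (equi_triv _)
        (mapZ2 (compat_inclusion hH'.2.2) (equi_triv _) T.glob))).2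
      ⟨fun τ => b τ, hb.precomp ((LL q).sub_compat _), funext fun x => ?_⟩
    exact (hbd x.1 x.1.2 x.2 x.2.2).symm
  let f : T.V →* H' := T.j.codRestrict H' hH'.2.1
  have hf : Compat (LQ.sub H') ((LL l).sub T.V) f := by
    rintro _ ⟨N, hN, rfl⟩
    obtain ⟨N', hN', hle⟩ := T.compat N hN
    exact ⟨N', hN', fun a ha => hle ha⟩
  have h1 := congrArg (res2t (p := p) hf) h0
  rw [map_zero] at h1
  refine hZ (Eq.trans (congrArg (mk2 _ (triv T.V p)) (Subtype.ext (funext fun x => ?_))) h1)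
  exact (T.cochain_eq (a := x.1) (b := x.2) rfl rfl).symm

/-- **The class survives on every level containing the preimage of the decomposition group.** -/
theorem res_ne_zero {q : ℕ} [Fact q.Prime] {g : GQ} (hg : ∀ H', T.Between H' → ¬ T.NullAt H' q g)
    {V' : Subgroup (LG l)} (hV' : V' ∈ (LL l).carrier) (hle : V' ≤ T.V)
    (hB : ∀ a : T.V, T.j a ∈ decompAt q g⁻¹ → (a : LG l) ∈ V') :
    res2t (compat_inclusion hle) (mk2 ((LL l).sub T.V) (triv T.V p) T.Z) ≠ 0 := by
  intro h0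
  obtain ⟨b, ⟨_, ⟨N₁, hN₁, rfl⟩, hbN⟩, hbd⟩ := (mk2_eq_zero ((LL l).sub V') _
    (mapZ2 (compat_inclusion hle) (equi_triv _) T.Z)).1 h0
  obtain ⟨M₂, hM₂, hM₂n, hM₂N⟩ := exists_comap_le T.mem_V T.compat T.inj
    ((LL l).inf_mem hN₁ hV')
  set M' := T.M ⊓ M₂
  have hM' : M' ∈ LQ.carrier := LQ.inf_mem T.mem_M hM₂
  let f' : V' →* GQ ⧸ M' :=
    (QuotientGroup.mk' M').comp (T.j.comp (Subgroup.inclusion hle))
  set W := f'.range.comap (QuotientGroup.mk' M')
  have hW : IsClosed (W : Set GQ) := isClosed_level (by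
    obtain ⟨F, hF, hFle⟩ := hM'
    exact ⟨F, hF, fun x hx => by
      show QuotientGroup.mk' M' x ∈ f'.range
      rw [QuotientGroup.mk'_apply, (QuotientGroup.eq_one_iff x).2 (hFle hx)]
      exact one_mem _⟩)
  have hWopen : IsOpen (W : Set GQ) := Subgroup.isOpen_mono (H₁ := M') (fun x hx => by
    show QuotientGroup.mk' M' x ∈ f'.range
    rw [QuotientGroup.mk'_apply, (QuotientGroup.eq_one_iff x).2 hx]
    exact one_mem _) (isOpen_level hM')
  have := compactSpace_level T.mem_V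
  have hJ : IsClosed (Set.range T.j) := by
    rw [← Set.image_univ]
    exact isClosed_image_of_compat T.mem_V T.compat isClosed_univ
  obtain ⟨U, hU, hUn, hUW⟩ := exists_level_mul_notMem
    (C := (decompAt q g⁻¹ : Set GQ) ∩ (W : Set GQ)ᶜ)
    ((isClosed_decompAt g⁻¹).inter hWopen.isClosed_compl).isCompact hJ (by
      rintro x ⟨hxD, hxW⟩ ⟨a, rfl⟩
      exact hxW ⟨⟨a, hB a hxD⟩, rfl⟩)
  set U' := U ⊓ T.M
  let H' : Subgroup GQ := ((QuotientGroup.mk' U').comp T.j).range.comap (QuotientGroup.mk' U')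
  have hmem : ∀ x ∈ H', ∃ a, (T.j a)⁻¹ * x ∈ U' := fun x ⟨a, ha⟩ => ⟨a, QuotientGroup.eq.1 ha⟩
  have hH' : T.Between H' := by
    refine ⟨?_, fun a => ⟨a, rfl⟩, fun x hx => ?_⟩
    · obtain ⟨F, hF, hFle⟩ := LQ.inf_mem hU T.mem_M
      exact ⟨F, hF, fun x hx => ⟨1, by
        rw [map_one, QuotientGroup.mk'_apply, (QuotientGroup.eq_one_iff x).2 (hFle hx)]⟩⟩
    · obtain ⟨a, ha⟩ := hmem x hx
      exact ⟨a, QuotientGroup.eq.2 ha.2⟩
  have key : ∀ τ ∈ hloc H' q g, ∃ a : V', f' a = QuotientGroup.mk' M' (g⁻¹ * loc q τ * g) :=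
    fun τ hτ => by
    have hD : g⁻¹ * loc q τ * g ∈ decompAt q g⁻¹ := by
      simpa using conj_loc_mem (q := q) g⁻¹ τ
    obtain ⟨a, ha⟩ := hmem _ ((mem_hloc H').1 hτ)
    by_contra hne
    refine hUW _ ⟨hD, hne⟩ _ (inv_mem ha.1) ⟨a, ?_⟩
    group
  let β : LG q → ZMod p := fun τ =>
    b (Function.invFun f' (QuotientGroup.mk' M' (g⁻¹ * loc q τ * g)))
  have hβ : LC₁ (LL q) β := by
    obtain ⟨N, hN, hNle⟩ := compat_loc (q := q) _ hM'
    refine ⟨N, hN, fun τ s hs => ?_⟩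
    have hs' : g⁻¹ * loc q s * g ∈ M' :=
      (show M'.Normal from inferInstance).conj_mem' _ (hNle hs) g
    show b (Function.invFun f' _) = b (Function.invFun f' _)
    rw [show g⁻¹ * loc q (τ * s) * g = (g⁻¹ * loc q τ * g) * (g⁻¹ * loc q s * g) by
      rw [map_mul]; group, map_mul (QuotientGroup.mk' M'), QuotientGroup.mk'_apply,
      QuotientGroup.mk'_apply, (QuotientGroup.eq_one_iff _).2 hs', mul_one]
  refine hg H' hH' ⟨β, hβ, fun m hm m' hm' => ?_⟩
  obtain ⟨a₀, ha₀⟩ := key m hm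
  obtain ⟨a₀', ha₀'⟩ := key m' hm'
  obtain ⟨a₁, ha₁⟩ := key (m * m') (mul_mem hm hm')
  set x := g⁻¹ * loc q m * g
  set x' := g⁻¹ * loc q m' * g
  have hxx : g⁻¹ * loc q (m * m') * g = x * x' := by rw [map_mul]; simp only [x, x']; group
  set a := Function.invFun f' (QuotientGroup.mk' M' x)
  set a' := Function.invFun f' (QuotientGroup.mk' M' x')
  have ha : f' a = QuotientGroup.mk' M' x := Function.invFun_eq ⟨a₀, ha₀⟩
  have ha' : f' a' = QuotientGroup.mk' M' x' := Function.invFun_eq ⟨a₀', ha₀'⟩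
  set c := Function.invFun f' (QuotientGroup.mk' M' (g⁻¹ * loc q (m * m') * g))
  have hc : f' c = QuotientGroup.mk' M' (g⁻¹ * loc q (m * m') * g) :=
    Function.invFun_eq ⟨a₁, ha₁⟩
  have hbc : b c = b (a * a') := by
    have h1 : f' ((a * a')⁻¹ * c) = 1 := by
      rw [map_mul, map_inv, map_mul f', ha, ha', hc, hxx, map_mul (QuotientGroup.mk' M') x x',
        inv_mul_cancel]
    have h2 := hM₂N _ ((QuotientGroup.eq_one_iff _).1 h1).2
    have h3 := hbN (a * a') ((a * a')⁻¹ * c) (Subgroup.mem_subgroupOf.2 h2.1)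
    rwa [mul_inv_cancel_left] at h3
  have hlift : ∀ (u : V') (v : GQ), f' u = QuotientGroup.mk' M' v →
      T.jBar (Subgroup.inclusion hle u) = QuotientGroup.mk' T.M v :=
    fun u v huv => QuotientGroup.eq.2 (QuotientGroup.eq.1 huv).1
  show T.cochain (x, x') = b a' - b c + b a
  rw [hbc, T.cochain_eq (hlift a x ha) (hlift a' x' ha')]
  exact (congrFun hbd (a, a')).symm

end Transport

end Fermat.Agent.Neukirch
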