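import Fermat.Agent.SolvableOverCyclotomic.LocalKill
import Fermat.Agent.ScholzReichardt.Basic

/-!
# Subgroups on which a local class survives

Restriction to a subgroup of index prime to `p` is injective on the second cohomology; over a local
field with the `p`-th roots of unity the subgroups on which some class survives have index prime
to `p`.
-/

set_option autoImplicit false
set_option linter.unusedSectionVars false

noncomputable section

namespace Fermat.Agent.Neukirch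

open FA.GalCoh

section Generic

variable {G : Type} [Group G] {L : Levels G} {p : ℕ} [hp : Fact p.Prime]

/-- Restriction to a subgroup of index prime to `p` is injective. -/
theorem res2t_injective_of_relIndex {H S N : Subgroup G} [N.Normal] (hN : N ∈ L.carrier)
    (hNS : N ≤ S) (hSH : S ≤ H) (hidx : ¬ p ∣ S.relIndex H) :
    Function.Injective (res2t (p := p) (compat_inclusion (L := L) hSH)) := by
  classical
  have hNs : N.subgroupOf H ∈ (L.sub H).carrier := ⟨N, hN, rfl⟩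
  have hle : N.subgroupOf H ≤ S.subgroupOf H := Subgroup.comap_mono hNS
  have : (N.subgroupOf H).FiniteIndex := (L.sub H).finiteIndex hNs
  have : (S.subgroupOf H).FiniteIndex := Subgroup.finiteIndex_of_le hle
  have : Fintype (H ⧸ S.subgroupOf H) := Fintype.ofFinite _
  let T := cosetTrans (L.sub H) (S.subgroupOf H) hNs inferInstance hle
  have hcard : (Fintype.card (H ⧸ S.subgroupOf H) : ZMod p) ≠ 0 := fun h => by
    rw [ZMod.natCast_eq_zero_iff, Fintype.card_eq_nat_card, ← Subgroup.index_eq_card] at h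
    exact hidx h
  refine (injective_iff_map_eq_zero _).2 fun w hw => ?_
  let j : T.H →* S := ((H.subtype.comp T.H.subtype)).codRestrict _ fun g =>
    Subgroup.mem_subgroupOf.1 ((mem_cosetTrans_H hNs inferInstance hle).1 g.2)
  have hj : Compat (L.sub S) ((L.sub H).sub T.H) j := by
    rintro _ ⟨M, hM, rfl⟩
    exact ⟨_, ⟨_, ⟨M, hM, rfl⟩, rfl⟩, fun g hg => hg⟩
  have h0 : map2 (Levels.sub_compat _ T.H) (Equi.res T.H.subtype (triv H p)) w = 0 := by
    have := congrArg (res2t (p := p) hj) hw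
    rw [map_zero] at this
    rw [← this]
    obtain ⟨W, rfl⟩ := mk2_surjective w
    rfl
  exact res2_injective_of_card T hcard (h0.trans (map_zero _).symm)

theorem res2t_res2t {H S S' : Subgroup G} (h : S ≤ H) (h' : S' ≤ S)
    (z : H2 (L.sub H) (triv H p)) :
    res2t (compat_inclusion h') (res2t (compat_inclusion h) z)
      = res2t (compat_inclusion (L := L) (h'.trans h)) z := by
  obtain ⟨Z, rfl⟩ := mk2_surjective z
  rfl

end Generic

variable {q : ℕ} [hq : Fact q.Prime] {p : ℕ} [hp : Fact p.Prime]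

set_option maxHeartbeats 800000 in
-- nested subgroups of the Galois group are slow to unify
/-- **A local class survives only on subgroups of index prime to `p`.** -/
theorem not_dvd_relIndex_of_res_ne_zero {V V' : Subgroup (LG q)} (hV : V ∈ (LL q).carrier)
    (hV' : V' ∈ (LL q).carrier) (K : KumData ((LL q).sub V) (PadicAlgCl q) p) (hle : V' ≤ V)
    {z : H2 ((LL q).sub V) (triv V p)} (hz : res2t (compat_inclusion hle) z ≠ 0) :
    ¬ p ∣ V'.relIndex V := fun hdvd => by
  obtain ⟨M, hM, hMV', hMn⟩ := (LL q).exists_normal hV'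
  have := (LL q).finiteIndex hM
  let π : V →* V ⧸ M.subgroupOf V := QuotientGroup.mk' _
  have hπ : Function.Surjective π := QuotientGroup.mk'_surjective _
  have hker : π.ker ≤ V'.subgroupOf V := by
    rw [QuotientGroup.ker_mk']
    exact Subgroup.comap_mono hMV'
  have hMle : ∀ (R : Subgroup (V ⧸ M.subgroupOf V)), M ≤ (R.comap π).map V.subtype :=
    fun R m hm => ⟨⟨m, hle (hMV' hm)⟩, Subgroup.mem_comap.2 (by
      rw [show π ⟨m, hle (hMV' hm)⟩ = 1 from
        (QuotientGroup.eq_one_iff _).2 (Subgroup.mem_subgroupOf.2 hm)]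
      exact one_mem R), rfl⟩
  set Q' := (V'.subgroupOf V).map π
  have hQ'idx : Q'.index = V'.relIndex V := (V'.subgroupOf V).index_map_eq hπ hker
  obtain ⟨P⟩ : Nonempty (Sylow p Q') := Sylow.nonempty
  set P' := (P : Subgroup Q').map Q'.subtype
  have hP'Q : P' ≤ Q' := Subgroup.map_subtype_le _
  obtain ⟨PT, hPT⟩ := (P.isPGroup'.map Q'.subtype).exists_le_sylow
  set PB : Subgroup (V ⧸ M.subgroupOf V) := PT.toSubgroup
  have hne : P'.subgroupOf PB ≠ ⊤ := fun h => by
    rw [Subgroup.subgroupOf_eq_top] at h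
    have h2 := Subgroup.index_dvd_of_le hP'Q
    have e : P' = PB := le_antisymm hPT h
    rw [hQ'idx, e] at h2
    exact PT.not_dvd_index (hdvd.trans h2)
  obtain ⟨χ₀, hχ₀, hχ₀P, ⟨g, hgP⟩, hg⟩ :=
    ScholzReichardt.exists_char_of_ne_top PT.isPGroup' hne
  set D := (PB.comap π).map V.subtype
  set D' := (P'.comap π).map V.subtype
  have hD : D ∈ (LL q).carrier := by
    obtain ⟨F, hF, hFle⟩ := hM
    exact ⟨F, hF, hFle.trans (hMle _)⟩
  have hDV : D ≤ V := Subgroup.map_subtype_le _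
  have hD'D : D' ≤ D := Subgroup.map_mono (Subgroup.comap_mono hPT)
  have hD'V' : D' ≤ V' := by
    rintro _ ⟨τ, hτ, rfl⟩
    have h1 : τ ∈ Q'.comap π := hP'Q hτ
    rw [Subgroup.comap_map_eq_self hker] at h1
    exact Subgroup.mem_subgroupOf.1 h1
  have hmemD : ∀ τ : D, π ⟨τ.1, hDV τ.2⟩ ∈ PB := fun τ => by
    obtain ⟨t, ht, e⟩ := τ.2
    rw [show (⟨τ.1, hDV τ.2⟩ : V) = t from Subtype.ext e.symm]
    exact ht
  let χ : D → ZMod p := fun τ => (χ₀ ⟨g, hgP⟩)⁻¹ * χ₀ ⟨_, hmemD τ⟩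
  obtain ⟨t, ht⟩ := hπ g
  have C : CycData ((LL q).sub D) χ := by
    refine ⟨fun a b => ?_, ⟨M.subgroupOf D, ⟨M, hM, rfl⟩, fun a s hs => ?_⟩,
      ⟨t.1, t, (by show π t ∈ PB; rw [ht]; exact hgP), rfl⟩, ?_⟩
    · show (χ₀ ⟨g, hgP⟩)⁻¹ * χ₀ ⟨_, hmemD (a * b)⟩ = _
      rw [← mul_add, ← hχ₀]
      rfl
    · show (χ₀ ⟨g, hgP⟩)⁻¹ * χ₀ ⟨_, hmemD (a * s)⟩ = (χ₀ ⟨g, hgP⟩)⁻¹ * χ₀ ⟨_, hmemD a⟩
      refine congrArg _ (congrArg χ₀ (Subtype.ext ?_))
      show π (⟨a.1, hDV a.2⟩ * ⟨s.1, hDV s.2⟩) = π ⟨a.1, hDV a.2⟩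
      rw [map_mul, show π ⟨s.1, hDV s.2⟩ = 1 from
        (QuotientGroup.eq_one_iff _).2 (Subgroup.mem_subgroupOf.2 (Subgroup.mem_subgroupOf.1 hs)),
        mul_one]
    · show (χ₀ ⟨g, hgP⟩)⁻¹ * χ₀ ⟨_, _⟩ = 1
      rw [show (⟨π ⟨t.1, _⟩, _⟩ : PB) = ⟨g, hgP⟩ from Subtype.ext ht]
      exact inv_mul_cancel₀ hg
  have h0 := SolvableOverCyclotomic.res2t_eq_zero_of_char hD (K.restrict hDV) C hD'D (fun τ => by
    show (χ₀ ⟨g, hgP⟩)⁻¹ * χ₀ ⟨_, hmemD _⟩ = 0
    refine mul_eq_zero_of_right _ (hχ₀P _ (Subgroup.mem_subgroupOf.2 ?_))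
    obtain ⟨t, ht, e⟩ := τ.2
    show π ⟨τ.1, _⟩ ∈ P'
    rw [show (⟨τ.1, hDV (hD'D τ.2)⟩ : V) = t from Subtype.ext e.symm]
    exact ht) (res2t (compat_inclusion hDV) z)
  rw [res2t_res2t, ← res2t_res2t hle hD'V'] at h0
  refine hz (res2t_injective_of_relIndex hM (hMle _) hD'V' ?_ (h0.trans (map_zero _).symm))
  have hV'eq : V' = (Q'.comap π).map V.subtype := by
    rw [Subgroup.comap_map_eq_self hker, Subgroup.map_subgroupOf_eq_of_le hle]
  show ¬ p ∣ ((P'.comap π).map V.subtype).relIndex V'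
  conv => arg 1; arg 2; arg 2; rw [hV'eq]
  rw [Subgroup.relIndex_map_map_of_injective _ _ V.subtype_injective, Subgroup.relIndex_comap,
    Subgroup.map_comap_eq_self_of_surjective hπ,
    show P'.relIndex Q' = (P : Subgroup Q').index from
      congrArg Subgroup.index (Subgroup.comap_map_eq_self_of_injective Q'.subtype_injective _)]
  exact P.not_dvd_index

end Fermat.Agent.Neukirch
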