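import Mathlib

/-!
# Automorphisms preserving two inequivalent absolute values

An automorphism with finite orbits of an algebraically closed field preserving two inequivalent
non-archimedean absolute values is the identity: weak approximation on its fixed field gives a
polynomial which is close to an orbit for one of them and to a product of factors `X - i` for the
other, so all its roots are fixed, and one of them separates the orbit.
-/

set_option autoImplicit false
set_option linter.unusedSectionVars false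

noncomputable section

namespace Fermat.Agent.Neukirch

open Polynomial

variable {L : Type*} [Field L]

/-- A positive lower bound for the values at all points of a finite set. -/
theorem exists_pos_le {ι : Type*} (s : Finset ι) (f : ι → ℝ) (h : ∀ i ∈ s, 0 < f i) :
    ∃ δ, 0 < δ ∧ ∀ i ∈ s, δ ≤ f i := by
  induction s using Finset.cons_induction with
  | empty => exact ⟨1, one_pos, by simp⟩
  | cons a s ha ih =>
    obtain ⟨δ, hδ, hs⟩ := ih fun i hi => h i (Finset.mem_cons_of_mem hi)
    refine ⟨min δ (f a), lt_min hδ (h a (Finset.mem_cons_self a s)), fun i hi => ?_⟩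
    rcases Finset.mem_cons.1 hi with rfl | hi
    · exact min_le_right _ _
    · exact (min_le_left _ _).trans (hs i hi)

/-- A small value of a monic split polynomial comes from a root nearby. -/
theorem exists_root_near (v : AbsoluteValue L ℝ) {P : L[X]} (hP : P.Monic) (hsplit : P.Splits)
    {x : L} {δ : ℝ} (hδ : 0 < δ) (h : v (P.eval x) < δ ^ P.natDegree) :
    ∃ β ∈ P.roots, v (x - β) < δ := by
  by_contra hne
  push Not at hne
  have h1 : ∀ s : Multiset L, (∀ β ∈ s, δ ≤ v (x - β)) →
      δ ^ Multiset.card s ≤ v (s.map fun β => x - β).prod := fun s => by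
    induction s using Multiset.induction_on with
    | empty => simp
    | cons a s ih =>
      intro hs
      rw [Multiset.card_cons, pow_succ', Multiset.map_cons, Multiset.prod_cons, map_mul]
      exact mul_le_mul (hs a (Multiset.mem_cons_self a s))
        (ih fun β hβ => hs β (Multiset.mem_cons_of_mem hβ)) (pow_nonneg hδ.le _) (v.nonneg _)
  refine absurd (h1 _ hne) (not_le.2 ?_)
  rw [← hsplit.natDegree_eq_card_roots]
  refine lt_of_eq_of_lt ?_ h
  conv_rhs => rw [hsplit.eq_prod_roots_of_monic hP, eval_multiset_prod]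
  rw [Multiset.map_map]
  simp

/-- An element of the fixed field with a prescribed behaviour at both absolute values. -/
theorem exists_fixed_near {v w : AbsoluteValue L ℝ} (hv : IsNonarchimedean v)
    (hw : IsNonarchimedean w) (σ : L →+* L) {e : L} (he : σ e = e) (hev : 1 < v e) (hew : w e < 1)
    {ε : ℝ} (hε : 0 < ε) : ∃ u, σ u = u ∧ v u < ε ∧ w (1 - u) < ε := by
  obtain ⟨n, hn⟩ := exists_pow_lt_of_lt_one hε hew
  obtain ⟨n', hn'⟩ := exists_pow_lt_of_lt_one hε (inv_lt_one_of_one_lt₀ hev)
  have hvi : (v e)⁻¹ < 1 := inv_lt_one_of_one_lt₀ hev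
  set k := n + n' + 1
  have hk0 : k ≠ 0 := by omega
  have hwk : w e ^ k < 1 := pow_lt_one₀ (w.nonneg _) hew hk0
  have hvk : 1 < v e ^ k := one_lt_pow₀ hev hk0
  have h1w : w (1 + e ^ k) = 1 := by
    rw [hw.add_eq_max_of_ne (by rw [map_one, map_pow]; exact hwk.ne'), map_one, map_pow,
      max_eq_left hwk.le]
  have h1v : v (1 + e ^ k) = v e ^ k := by
    rw [hv.add_eq_max_of_ne (by rw [map_one, map_pow]; exact hvk.ne), map_one, map_pow,
      max_eq_right hvk.le]
  have hne : 1 + e ^ k ≠ 0 := fun h => by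
    rw [h, map_zero] at h1w
    exact one_ne_zero h1w.symm
  refine ⟨1 / (1 + e ^ k), by rw [map_div₀, map_one, map_add, map_one, map_pow, he], ?_, ?_⟩
  · rw [map_div₀, map_one, h1v, one_div, ← inv_pow]
    exact lt_of_le_of_lt (pow_le_pow_of_le_one (inv_nonneg.2 (v.nonneg _)) hvi.le (by omega)) hn'
  · rw [show 1 - 1 / (1 + e ^ k) = e ^ k / (1 + e ^ k) by field_simp; ring, map_div₀, h1w, div_one,
      map_pow]
    exact lt_of_le_of_lt (pow_le_pow_of_le_one (w.nonneg _) hew.le (by omega)) hn

/-- The orbit of a point with finite orbit, as a finite set stable under the automorphism. -/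
theorem exists_orbit (σ : L ≃+* L) {x : L} (h : (Set.range fun k : ℕ => (σ ^ k) x).Finite) :
    ∃ O : Finset L, x ∈ O ∧ O.map σ.toEquiv.toEmbedding = O ∧ ∀ y ∈ O, ∃ k : ℕ, (σ ^ k) x = y := by
  refine ⟨h.toFinset, h.mem_toFinset.2 ⟨0, rfl⟩, ?_, fun y hy => h.mem_toFinset.1 hy⟩
  refine Finset.eq_of_subset_of_card_le (fun y hy => ?_) (by rw [Finset.card_map])
  obtain ⟨z, hz, rfl⟩ := Finset.mem_map.1 hy
  obtain ⟨k, rfl⟩ := h.mem_toFinset.1 hz
  refine h.mem_toFinset.2 ⟨k + 1, ?_⟩
  show (σ ^ (k + 1)) x = σ ((σ ^ k) x)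
  rw [pow_succ', RingAut.mul_apply]

set_option maxHeartbeats 800000 in
-- the roots are compared at both absolute values
/-- **An automorphism preserving two inequivalent absolute values is trivial.** -/
theorem eq_of_preserves [IsAlgClosed L] [CharZero L] {v w : AbsoluteValue L ℝ}
    (hv : IsNonarchimedean v) (hw : IsNonarchimedean w) (hvn : v.IsNontrivial)
    (hwn : w.IsNontrivial) (hne : ¬ v.IsEquiv w) (σ : L ≃+* L)
    (horb : ∀ x, (Set.range fun k : ℕ => (σ ^ k) x).Finite) (hσv : ∀ x, v (σ x) = v x)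
    (hσw : ∀ x, w (σ x) = w x) (α : L) : σ α = α := by
  classical
  -- a fixed element separating the two absolute values
  obtain ⟨e₀, hev₀, hew₀⟩ := AbsoluteValue.exists_one_lt_lt_one_of_not_isEquiv hvn hwn hne
  have hiter : ∀ (u : AbsoluteValue L ℝ), (∀ x, u (σ x) = u x) → ∀ (k : ℕ) x,
      u ((σ ^ k) x) = u x := fun u hu k x => by
    induction k with
    | zero => rfl
    | succ k ih => rw [pow_succ', RingAut.mul_apply, hu, ih]
  obtain ⟨O₀, he₀, hO₀, hO₀'⟩ := exists_orbit σ (horb e₀)
  set e := ∏ y ∈ O₀, y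
  have he : σ e = e := by
    rw [map_prod]
    conv_rhs => rw [show e = ∏ y ∈ O₀, y from rfl, ← hO₀, Finset.prod_map]
    rfl
  have hO₀0 : O₀.card ≠ 0 := Finset.card_ne_zero.2 ⟨e₀, he₀⟩
  have hval : ∀ (u : AbsoluteValue L ℝ), (∀ x, u (σ x) = u x) → u e = u e₀ ^ O₀.card :=
    fun u hu => by
    rw [map_prod]
    refine Finset.prod_eq_pow_card fun y hy => ?_
    obtain ⟨k, rfl⟩ := hO₀' y hy
    exact hiter u hu k e₀
  have hev : 1 < v e := by rw [hval v hσv]; exact one_lt_pow₀ hev₀ hO₀0
  have hew : w e < 1 := by rw [hval w hσw]; exact pow_lt_one₀ (w.nonneg _) hew₀ hO₀0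
  -- the orbit and the bounds
  obtain ⟨O, hα, hO, -⟩ := exists_orbit σ (horb α)
  set m := O.card
  obtain ⟨δ₁, hδ₁, hsepw⟩ := exists_pos_le (Finset.univ.filter fun z : Fin m × Fin m => z.1 ≠ z.2)
    (fun z => w ((z.1 : ℕ) - (z.2 : ℕ) : L)) fun z hz => w.pos fun h => by
      rw [sub_eq_zero, Nat.cast_inj] at h
      exact (Finset.mem_filter.1 hz).2 (Fin.ext h)
  obtain ⟨δ₂, hδ₂, hsepv⟩ := exists_pos_le (O.erase α) (fun y => v (α - y)) fun y hy =>
    v.pos fun h => (Finset.mem_erase.1 hy).1 (sub_eq_zero.1 h).symm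
  set f : L[X] := ∏ y ∈ O, (X - C y) with hfdef
  set h : L[X] := ∏ i : Fin m, (X - C ((i : ℕ) : L)) with hhdef
  set M := 1 + v (h.eval α) + ∑ i : Fin m, w (f.eval ((i : ℕ) : L))
  have hM : 0 < M := by positivity
  set ε := min (δ₁ ^ m) (δ₂ ^ m) / M
  obtain ⟨u, hu, huv, huw⟩ := exists_fixed_near hv hw σ.toRingHom he hev hew
    (show 0 < ε from div_pos (lt_min (pow_pos hδ₁ _) (pow_pos hδ₂ _)) hM)
  -- the polynomial
  set P : L[X] := C (1 - u) * f + C u * h with hPdef
  have hdeg : f.natDegree = m ∧ h.natDegree = m :=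
    ⟨natDegree_finsetProd_X_sub_C_eq_card _ _, by
      rw [hhdef, natDegree_finsetProd_X_sub_C_eq_card, Finset.card_univ, Fintype.card_fin]⟩
  have hfm : f.Monic := monic_prod_of_monic _ _ fun _ _ => monic_X_sub_C _
  have hhm : h.Monic := monic_prod_of_monic _ _ fun _ _ => monic_X_sub_C _
  have hle : P.natDegree ≤ m := (natDegree_add_le _ _).trans (max_le
    ((natDegree_C_mul_le _ _).trans hdeg.1.le) ((natDegree_C_mul_le _ _).trans hdeg.2.le))
  have hcoeff : P.coeff m = 1 := by
    have h1 := hfm.coeff_natDegree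
    have h2 := hhm.coeff_natDegree
    rw [hdeg.1] at h1
    rw [hdeg.2] at h2
    rw [hPdef, coeff_add, coeff_C_mul, coeff_C_mul, h1, h2]
    ring
  have hPm : P.Monic := monic_of_natDegree_le_of_coeff_eq_one m hle hcoeff
  have hPd : P.natDegree = m := natDegree_eq_of_le_of_coeff_ne_zero hle (by rw [hcoeff]; simp)
  have hPσ : P.map σ.toRingHom = P := by
    have hfσ : f.map σ.toRingHom = f := by
      conv_rhs => rw [hfdef, ← hO, Finset.prod_map]
      rw [hfdef, Polynomial.map_prod]
      exact Finset.prod_congr rfl fun y _ => by rw [Polynomial.map_sub, map_X, map_C]; rfl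
    have hhσ : h.map σ.toRingHom = h := by
      rw [hhdef, Polynomial.map_prod]
      exact Finset.prod_congr rfl fun i _ => by
        rw [Polynomial.map_sub, map_X, map_C, map_natCast]
    rw [hPdef, Polynomial.map_add, Polynomial.map_mul, Polynomial.map_mul, map_C, map_C, map_sub,
      map_one, hfσ, hhσ, hu]
  have hσroot : ∀ β ∈ P.roots, σ β ∈ P.roots := fun β hβ => by
    rw [mem_roots hPm.ne_zero, IsRoot.def] at hβ ⊢
    conv_lhs => rw [← hPσ]
    rw [eval_map, show σ β = σ.toRingHom β from rfl, eval₂_at_apply, hβ, map_zero]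
  have hsplit : P.Splits := IsAlgClosed.splits P
  -- one root near each of the first `m` natural numbers, fixed by the automorphism
  have hnear : ∀ i : Fin m, ∃ β ∈ P.roots, w ((i : ℕ) - β : L) < δ₁ := fun i => by
    refine exists_root_near w hPm hsplit hδ₁ ?_
    have h0 : h.eval ((i : ℕ) : L) = 0 := by
      rw [hhdef, eval_prod]
      exact Finset.prod_eq_zero (Finset.mem_univ i) (by simp)
    rw [hPdef, eval_add, eval_mul, eval_mul, eval_C, eval_C, h0, mul_zero, add_zero, map_mul,
      ← hPdef, hPd]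
    calc w (1 - u) * w (f.eval ((i : ℕ) : L))
        ≤ w (1 - u) * M := by
          refine mul_le_mul_of_nonneg_left ?_ (w.nonneg _)
          have := Finset.single_le_sum (f := fun j : Fin m => w (f.eval ((j : ℕ) : L)))
            (fun j _ => w.nonneg _) (Finset.mem_univ i)
          linarith [v.nonneg (h.eval α)]
      _ < ε * M := mul_lt_mul_of_pos_right huw hM
      _ ≤ δ₁ ^ m := by rw [div_mul_cancel₀ _ hM.ne']; exact min_le_left _ _
  choose β hβ hβw using hnear
  have hsep : ∀ i j : Fin m, ∀ b, w ((i : ℕ) - b : L) < δ₁ → w ((j : ℕ) - b : L) < δ₁ → i = j :=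
    fun i j b hi hj => by
    by_contra hij
    have h1 : δ₁ ≤ w ((i : ℕ) - (j : ℕ) : L) := hsepw (i, j) (by simp [hij])
    rw [show ((i : ℕ) - (j : ℕ) : L) = ((i : ℕ) - b) + -((j : ℕ) - b) by ring] at h1
    refine absurd (h1.trans (hw _ _)) (not_le.2 (max_lt hi ?_))
    rwa [AbsoluteValue.map_neg]
  have hall : ∀ b ∈ P.roots, ∃ i, β i = b := fun b hb => by
    have hinj : Function.Injective β := fun i j hij => hsep i j _ (hβw i) (hij ▸ hβw j)
    have h1 : Finset.univ.image β = P.roots.toFinset := Finset.eq_of_subset_of_card_le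
      (fun x hx => by
        obtain ⟨i, -, rfl⟩ := Finset.mem_image.1 hx
        exact Multiset.mem_toFinset.2 (hβ i)) (by
      rw [Finset.card_image_of_injective _ hinj, Finset.card_univ, Fintype.card_fin]
      exact (Multiset.toFinset_card_le _).trans ((card_roots' P).trans hle))
    obtain ⟨i, -, hi⟩ := Finset.mem_image.1 (h1.symm ▸ Multiset.mem_toFinset.2 hb)
    exact ⟨i, hi⟩
  have hfix : ∀ b ∈ P.roots, σ b = b := fun b hb => by
    obtain ⟨i, rfl⟩ := hall b hb
    obtain ⟨j, hj⟩ := hall _ (hσroot _ (hβ i))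
    have h1 : w ((i : ℕ) - β j : L) < δ₁ := by
      rw [hj, show ((i : ℕ) - σ (β i) : L) = σ ((i : ℕ) - β i) by rw [map_sub, map_natCast], hσw]
      exact hβw i
    rw [← hj, hsep j i _ (hβw j) h1]
  -- a root near `α`
  obtain ⟨b, hb, hbv⟩ : ∃ b ∈ P.roots, v (α - b) < δ₂ := by
    refine exists_root_near v hPm hsplit hδ₂ ?_
    have h0 : f.eval α = 0 := by
      rw [hfdef, eval_prod]
      exact Finset.prod_eq_zero hα (by simp)
    rw [hPdef, eval_add, eval_mul, eval_mul, eval_C, eval_C, h0, mul_zero, zero_add, map_mul,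
      ← hPdef, hPd]
    calc v u * v (h.eval α) ≤ v u * M := by
          refine mul_le_mul_of_nonneg_left ?_ (v.nonneg _)
          have := Finset.sum_nonneg (s := Finset.univ) fun (j : Fin m) _ =>
            w.nonneg (f.eval ((j : ℕ) : L))
          linarith
      _ < ε * M := mul_lt_mul_of_pos_right huv hM
      _ ≤ δ₂ ^ m := by rw [div_mul_cancel₀ _ hM.ne']; exact min_le_right _ _
  by_contra hne'
  have h2 : δ₂ ≤ v (α - σ α) := hsepv _ (Finset.mem_erase.2 ⟨hne',
    hO.subset (Finset.mem_map.2 ⟨α, hα, rfl⟩)⟩)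
  rw [show α - σ α = (α - b) + -(σ α - σ b) by rw [hfix b hb]; ring] at h2
  refine absurd (h2.trans (hv _ _)) (not_le.2 (max_lt hbv ?_))
  rwa [AbsoluteValue.map_neg, ← map_sub, hσv]

end Fermat.Agent.Neukirch
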