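import Fermat.Agent.Neukirch.Topology
import Fermat.Agent.GalCoh.LocalH2
import Fermat.Agent.GalCoh.Localise
import Fermat.Agent.GalCoh.CycloGlobal
import Fermat.Agent.SolvableOverCyclotomic.Levels

/-!
# An open subgroup determines the prime and the degree

Isomorphic open subgroups of the Galois groups of `ℚ_q` and `ℚ_{q'}` have the same residue
characteristic and the same index: the number of characters of order `q` of a level containing the
roots of unity sees both.
-/

set_option autoImplicit false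
set_option linter.unusedSectionVars false

noncomputable section

namespace Fermat.Agent.Neukirch

open FA.GalCoh SolvableOverCyclotomic

variable {q : ℕ} [hq : Fact q.Prime]

theorem finrank_fixedField_level {V : Subgroup (LG q)} (hV : V ∈ (LL q).carrier) :
    Module.finrank ℚ_[q] (IntermediateField.fixedField V) = V.index := by
  rw [IntermediateField.finrank_eq_fixingSubgroup_index,
    show (IntermediateField.fixedField V).fixingSubgroup = V from
      InfiniteGalois.fixingSubgroup_fixedField ⟨V, isClosed_level hV⟩]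

/-- Kummer data for a level below the roots of unity. -/
def levelKum {p : ℕ} [Fact p.Prime] {m : ℕ} (hpm : p ∣ m) {V : Subgroup (LG q)}
    (h : V ≤ hloc (fixMu m) q 1) : KumData ((LL q).sub V) (PadicAlgCl q) p :=
  (locKum ((cycQ p).kumData (fixMu m) fun _ hx => cycloChar_eq_one hpm hx) q 1).restrict h

theorem natCard_H1_congr {G G' : Type} [Group G] [Group G'] {L : Levels G} {L' : Levels G'} {p : ℕ}
    [Fact p.Prime] (e : G ≃* G') (he : Compat L' L e.toMonoidHom)
    (he' : Compat L L' e.symm.toMonoidHom) :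
    Nat.card (H1 L (triv G p)) = Nat.card (H1 L' (triv G' p)) := by
  refine Nat.card_congr
    { toFun := res1t he'
      invFun := res1t he
      left_inv := fun x => ?_
      right_inv := fun x => ?_ }
  · obtain ⟨Z, rfl⟩ := mk1_surjective x
    refine congrArg (mk1 L (triv G p)) (Subtype.ext (funext fun g => ?_))
    show Z.1 (e.symm (e g)) = Z.1 g
    rw [e.symm_apply_apply]
  · obtain ⟨Z, rfl⟩ := mk1_surjective x
    refine congrArg (mk1 L' (triv G' p)) (Subtype.ext (funext fun g => ?_))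
    show Z.1 (e (e.symm g)) = Z.1 g
    rw [e.apply_symm_apply]

variable {q' : ℕ} [hq' : Fact q'.Prime]

set_option maxHeartbeats 800000 in
-- nested subgroups of the Galois groups are slow to unify
/-- **Isomorphic open subgroups of local Galois groups have the same prime and index.** -/
theorem eq_and_index_eq_of_iso {U : Subgroup (LG q)} {U' : Subgroup (LG q')}
    (hU : U ∈ (LL q).carrier) (hU' : U' ∈ (LL q').carrier) (e : U ≃* U')
    (he : Compat ((LL q').sub U') ((LL q).sub U) e.toMonoidHom)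
    (he' : Compat ((LL q).sub U) ((LL q').sub U') e.symm.toMonoidHom) :
    q = q' ∧ U.index = U'.index := by
  have hm : 0 < q * q' := Nat.mul_pos hq.out.pos hq'.out.pos
  obtain ⟨_, ⟨N, hN, rfl⟩, hNle⟩ :=
    he _ ⟨_, hloc_mem (q := q') (fixMu_mem hm) 1, rfl⟩
  obtain ⟨V, hV, hle, hn⟩ := (LL q).exists_normal ((LL q).inf_mem ((LL q).inf_mem hU hN)
    (hloc_mem (q := q) (fixMu_mem hm) 1))
  have hVU : V ≤ U := fun x hx => (hle hx).1.1
  set V' := ((V.subgroupOf U).map e.toMonoidHom).map U'.subtype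
  have hV'U' : V' ≤ U' := Subgroup.map_subtype_le _
  have hsub : V'.subgroupOf U' = (V.subgroupOf U).map e.toMonoidHom :=
    Subgroup.comap_map_eq_self_of_injective U'.subtype_injective _
  have hV' : V' ∈ (LL q').carrier := by
    obtain ⟨_, ⟨N', hN', rfl⟩, hle'⟩ := he' _ ⟨V, hV, rfl⟩
    obtain ⟨F, hF, hFle⟩ := (LL q').inf_mem hN' hU'
    exact ⟨F, hF, fun x hx => ⟨⟨x, (hFle hx).2⟩, ⟨_, hle' (Subgroup.mem_subgroupOf.2
      (show ((⟨x, (hFle hx).2⟩ : U') : LG q') ∈ N' from (hFle hx).1)), e.apply_symm_apply _⟩, rfl⟩⟩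
  have hμ : V ≤ hloc (fixMu (q * q')) q 1 := fun x hx => (hle hx).2
  have hμ' : V' ≤ hloc (fixMu (q * q')) q' 1 := by
    rintro _ ⟨y, ⟨x, hx, rfl⟩, rfl⟩
    exact Subgroup.mem_subgroupOf.1 (hNle (Subgroup.mem_subgroupOf.2
      (hle (Subgroup.mem_subgroupOf.1 hx)).1.2))
  let eV : V ≃* V' := ((Subgroup.subgroupOfEquivOfLe hVU).symm.trans
    (e.subgroupMap (V.subgroupOf U))).trans
      ((Subgroup.equivMapOfInjective _ U'.subtype U'.subtype_injective))
  have hval : ∀ x : V, ((eV x : V') : LG q') = (e ⟨x, hVU x.2⟩ : U') := fun x => rfl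
  have hvals : ∀ y : V', (⟨(eV.symm y : V).1, hVU (eV.symm y).2⟩ : U) = e.symm ⟨y, hV'U' y.2⟩ :=
    fun y => by
    rw [eq_comm, MulEquiv.symm_apply_eq]
    refine Subtype.ext ?_
    rw [← hval, eV.apply_symm_apply]
  have heV : Compat ((LL q').sub V') ((LL q).sub V) eV.toMonoidHom := by
    rintro _ ⟨R, hR, rfl⟩
    obtain ⟨_, ⟨R', hR', rfl⟩, hRle⟩ := he _ ⟨R, hR, rfl⟩
    refine ⟨_, ⟨R', hR', rfl⟩, fun x hx => Subgroup.mem_subgroupOf.2 ?_⟩
    rw [show ((eV.toMonoidHom x : V') : LG q') = (e ⟨x, hVU x.2⟩ : U') from hval x]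
    exact Subgroup.mem_subgroupOf.1 (hRle (x := ⟨x, hVU x.2⟩)
      (Subgroup.mem_subgroupOf.2 (Subgroup.mem_subgroupOf.1 hx)))
  have heV' : Compat ((LL q).sub V) ((LL q').sub V') eV.symm.toMonoidHom := by
    rintro _ ⟨R, hR, rfl⟩
    obtain ⟨_, ⟨R', hR', rfl⟩, hRle⟩ := he' _ ⟨R, hR, rfl⟩
    refine ⟨_, ⟨R', hR', rfl⟩, fun y hy => Subgroup.mem_subgroupOf.2 ?_⟩
    have h1 := hRle (x := ⟨y, hV'U' y.2⟩)
      (Subgroup.mem_subgroupOf.2 (Subgroup.mem_subgroupOf.1 hy))
    rw [Subgroup.mem_comap, show e.symm.toMonoidHom ⟨y, hV'U' y.2⟩ =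
      (⟨(eV.symm y : V).1, hVU (eV.symm y).2⟩ : U) from (hvals y).symm] at h1
    exact Subgroup.mem_subgroupOf.1 h1
  have hcard := natCard_H1_congr (p := q) eV heV heV'
  rw [natCard_H1 hV (levelKum (dvd_mul_right q q') hμ),
    natCard_H1 hV' (levelKum (dvd_mul_right q q') hμ'), if_pos rfl,
    finrank_fixedField_level hV, finrank_fixedField_level hV'] at hcard
  have hexp := Nat.pow_right_injective hq.out.two_le hcard
  have hqq : q = q' := by
    by_contra hne
    rw [if_neg (fun h => hne h.symm)] at hexp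
    exact ((LL q).finiteIndex hV).index_ne_zero (Nat.add_left_cancel hexp)
  refine ⟨hqq, ?_⟩
  rw [if_pos hqq.symm] at hexp
  have hrel : V'.relIndex U' = V.relIndex U := by
    show (V'.subgroupOf U').index = _
    rw [hsub]
    exact Subgroup.index_map_equiv _ e
  have h1 := Subgroup.relIndex_mul_index hVU
  have h2 := Subgroup.relIndex_mul_index hV'U'
  rw [hrel] at h2
  rw [Nat.add_left_cancel hexp, ← h2] at h1
  exact Nat.eq_of_mul_eq_mul_left (Nat.pos_of_ne_zero fun h0 => ((LL q').finiteIndex hV').1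
    (by rw [← h2, h0, zero_mul])) h1

end Fermat.Agent.Neukirch
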