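import Fermat.Agent.Neukirch.Local
import Fermat.Agent.Neukirch.Invariants
import Fermat.Agent.Density.Places
import Fermat.Agent.TW.LocalQ
import Fermat.Agent.ScholzReichardt.Basic

/-!
# Isomorphisms of the Galois groups of number fields

An isomorphism between two open subgroups of the absolute Galois group of `ℚ` matches their
decomposition groups, preserving the prime and the local degree. So the same primes split
completely, the normal cores are equal by Frobenius density, and so are the indices.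
-/

set_option autoImplicit false
set_option linter.unusedSectionVars false

noncomputable section

namespace Fermat.Agent.Neukirch

open FA.GalCoh
open scoped Pointwise

variable {q : ℕ} [hq : Fact q.Prime]

theorem decompAt_le_of_mem {g g' : GQ} (h : g⁻¹ * g' ∈ (loc q).range) :
    decompAt q g' ≤ decompAt q g := fun σ hσ => by
  refine mem_decompAt.2 ?_
  rw [show g⁻¹ * σ * g = g⁻¹ * g' * (g'⁻¹ * σ * g') * (g⁻¹ * g')⁻¹ by group]
  exact mul_mem (mul_mem h (mem_decompAt.1 hσ)) (inv_mem h)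

theorem decompAt_eq_of_mem {g g' : GQ} (h : g⁻¹ * g' ∈ (loc q).range) :
    decompAt q g' = decompAt q g :=
  le_antisymm (decompAt_le_of_mem h)
    (decompAt_le_of_mem (by simpa using inv_mem h))

/-- The decomposition group in `H` at the place of `g`. -/
def decIn (H : Subgroup GQ) (q : ℕ) [Fact q.Prime] (g : GQ) : Subgroup H := (locTo H q g).range

theorem mem_decIn {H : Subgroup GQ} {g : GQ} {x : H} :
    x ∈ decIn H q g ↔ (x : GQ) ∈ decompAt q g⁻¹ := by
  rw [mem_decompAt, inv_inv]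
  constructor
  · rintro ⟨τ, rfl⟩
    exact ⟨τ, by show loc q τ = g * (g⁻¹ * loc q τ * g) * g⁻¹; group⟩
  · rintro ⟨τ, hτ⟩
    have e : g⁻¹ * loc q τ * g = x := by rw [hτ]; group
    exact ⟨⟨τ, (mem_hloc H).2 (e ▸ x.2)⟩, Subtype.ext e⟩

theorem locTo_injective {H : Subgroup GQ} {g : GQ} : Function.Injective (locTo H q g) :=
  fun a b h => Subtype.ext (loc_injective (mul_left_cancel
    (mul_right_cancel (congrArg Subtype.val h : g⁻¹ * loc q a * g = g⁻¹ * loc q b * g))))

/-- An isomorphism of two levels, continuous in both directions. -/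
structure LevelIso (H H' : Subgroup GQ) where
  mem₁ : H ∈ LQ.carrier
  mem₂ : H' ∈ LQ.carrier
  /-- The isomorphism. -/
  e : H ≃* H'
  compat : Compat (LQ.sub H') (LQ.sub H) e.toMonoidHom
  compat' : Compat (LQ.sub H) (LQ.sub H') e.symm.toMonoidHom

variable {H H' : Subgroup GQ}

/-- The inverse isomorphism. -/
def LevelIso.symm (σ : LevelIso H H') : LevelIso H' H where
  mem₁ := σ.mem₂
  mem₂ := σ.mem₁
  e := σ.e.symm
  compat := σ.compat'
  compat' := σ.compat

theorem exists_map_le (σ : LevelIso H H') (g : GQ) :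
    ∃ (q' : ℕ) (_ : Fact q'.Prime) (g' : GQ),
      ∀ x ∈ decIn H q g, σ.e x ∈ decIn H' q' g' := by
  obtain ⟨q', hq', g', h⟩ := exists_decompAt (j := H'.subtype.comp
      (σ.e.toMonoidHom.comp (locTo H q g))) (hloc_mem σ.mem₁ g)
    ((Levels.sub_compat LQ H').comp (σ.compat.comp (compat_locTo g)))
    (H'.subtype_injective.comp (σ.e.injective.comp locTo_injective))
  refine ⟨q', hq', g'⁻¹, ?_⟩
  rintro _ ⟨τ, rfl⟩
  rw [mem_decIn, inv_inv]
  exact h τ

set_option maxHeartbeats 800000 in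
-- nested subgroups of the Galois groups are slow to unify
/-- **An isomorphism carries decomposition groups to decomposition groups**, with the same prime
and the same local degree. -/
theorem exists_map_eq (σ : LevelIso H H') (g : GQ) :
    ∃ g' : GQ, (∀ x, σ.e x ∈ decIn H' q g' ↔ x ∈ decIn H q g) ∧
      (hloc H q g).index = (hloc H' q g').index := by
  obtain ⟨q', hq', g', h1⟩ := exists_map_le (q := q) σ g
  obtain ⟨q'', hq'', g'', h2⟩ := exists_map_le (q := q') σ.symm g'
  obtain ⟨a, -, haD, ha1⟩ := exists_mem_wildL_inf (hloc_mem (q := q) σ.mem₁ g)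
  set x := locTo H q g ⟨a, haD⟩
  have hx1 : (x : GQ) ≠ 1 := fun h => ha1 (congrArg Subtype.val
    (locTo_injective (q := q) (H := H) (g := g) (show x = locTo H q g 1 by
      rw [map_one]; exact Subtype.ext h)))
  have hx : x ∈ decIn H q g := ⟨_, rfl⟩
  have hx2 : x ∈ decIn H q'' g'' := by
    have h3 := h2 (σ.e x) (h1 x hx)
    change σ.e.symm (σ.e x) ∈ _ at h3
    rwa [σ.e.symm_apply_apply] at h3
  obtain ⟨rfl, hgg⟩ := eq_of_mem_decompAt (mem_decIn.1 hx) (mem_decIn.1 hx2) hx1
  have heq : ∀ y, σ.e y ∈ decIn H' q' g' ↔ y ∈ decIn H q g := fun y => by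
    refine ⟨fun hy => ?_, h1 y⟩
    have h3 := h2 _ hy
    change σ.e.symm (σ.e y) ∈ _ at h3
    rw [σ.e.symm_apply_apply, mem_decIn, decompAt_eq_of_mem hgg, ← mem_decIn] at h3
    exact h3
  have hmap : (decIn H q g).map σ.e.toMonoidHom = decIn H' q' g' := by
    ext y
    constructor
    · rintro ⟨z, hz, rfl⟩
      exact h1 z hz
    · intro hy
      exact ⟨σ.e.symm y, (heq _).1 (by rwa [σ.e.apply_symm_apply]), σ.e.apply_symm_apply y⟩
  let ψ : hloc H q g ≃* hloc H' q' g' :=
    ((MonoidHom.ofInjective (locTo_injective (q := q) (H := H) (g := g))).trans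
      ((σ.e.subgroupMap (decIn H q g)).trans (MulEquiv.subgroupCongr hmap))).trans
      (MonoidHom.ofInjective (locTo_injective (q := q') (H := H') (g := g'))).symm
  have hψ : ∀ τ, locTo H' q' g' (ψ τ) = σ.e (locTo H q g τ) := fun τ =>
    MonoidHom.apply_ofInjective_symm (locTo_injective (q := q') (H := H') (g := g')) _
  have hψs : ∀ τ, locTo H q g (ψ.symm τ) = σ.e.symm (locTo H' q' g' τ) := fun τ => by
    rw [MulEquiv.eq_symm_apply, ← hψ, ψ.apply_symm_apply]
  have key : ∀ {r r' : ℕ} [Fact r.Prime] [Fact r'.Prime] {K K' : Subgroup GQ} (hK : K ∈ LQ.carrier)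
      (hK' : K' ∈ LQ.carrier) (e : K →* K') (_ : Compat (LQ.sub K') (LQ.sub K) e) (c c' : GQ)
      (f : hloc K r c →* hloc K' r' c') (_ : ∀ τ, locTo K' r' c' (f τ) = e (locTo K r c τ)),
      Compat ((LL r').sub (hloc K' r' c')) ((LL r).sub (hloc K r c)) f := by
    intro r r' _ _ K K' hK hK' e he c c' f hf
    rintro _ ⟨N, hN, rfl⟩
    obtain ⟨M, hM, -, hMN⟩ := exists_comap_le (hloc_mem (q := r') hK' c')
      ((Levels.sub_compat LQ K').comp (compat_locTo c'))
      (K'.subtype_injective.comp locTo_injective) hN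
    obtain ⟨R, hR, hRle⟩ := (he.comp (compat_locTo (q := r) c)) _ ⟨M, hM, rfl⟩
    refine ⟨R, hR, fun τ hτ => Subgroup.mem_subgroupOf.2 (hMN (f τ) ?_)⟩
    show ((locTo K' r' c' (f τ) : K') : GQ) ∈ M
    rw [hf]
    exact Subgroup.mem_subgroupOf.1 (hRle hτ)
  obtain ⟨rfl, hidx⟩ := eq_and_index_eq_of_iso (hloc_mem σ.mem₁ g) (hloc_mem σ.mem₂ g') ψ
    (key σ.mem₁ σ.mem₂ σ.e.toMonoidHom σ.compat g g' ψ.toMonoidHom hψ)
    (key σ.mem₂ σ.mem₁ σ.e.symm.toMonoidHom σ.compat' g' g ψ.symm.toMonoidHom hψs)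
  exact ⟨g', heq, hidx⟩

theorem normalCore_mem (hH : H ∈ LQ.carrier) : H.normalCore ∈ LQ.carrier := by
  obtain ⟨N, hN, hle, hn⟩ := LQ.exists_normal hH
  obtain ⟨F, hF, hFle⟩ := hN
  exact ⟨F, hF, hFle.trans (Subgroup.normal_le_normalCore.2 hle)⟩

/-- Complete splitting of `q` in the field of `H`. -/
theorem range_loc_le_normalCore_iff :
    (loc q).range ≤ H.normalCore ↔ ∀ g, hloc H q g = ⊤ := by
  constructor
  · intro h g
    refine eq_top_iff.2 fun τ _ => (mem_hloc H).2 ?_
    simpa using h ⟨τ, rfl⟩ g⁻¹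
  · rintro h _ ⟨τ, rfl⟩ b
    have := (mem_hloc H).1 (h b⁻¹ ▸ Subgroup.mem_top τ : τ ∈ hloc H q b⁻¹)
    rwa [inv_inv] at this

/-- **The same primes split completely.** -/
theorem range_loc_le_normalCore (σ : LevelIso H H') (h : (loc q).range ≤ H.normalCore) :
    (loc q).range ≤ H'.normalCore := range_loc_le_normalCore_iff.2 fun g' => by
  obtain ⟨g, -, hidx⟩ := exists_map_eq (q := q) σ.symm g'
  rw [range_loc_le_normalCore_iff.1 h g, Subgroup.index_top] at hidx
  exact Subgroup.index_eq_one.1 hidx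

/-- A Frobenius element in a normal level unramified at `q` brings the decomposition group in. -/
theorem range_loc_le_of_frobenius {N C : Subgroup GQ} [C.Normal] (hN : N ∈ LQ.carrier) (hNC : N ≤ C)
    (hunr : ∀ ι ∈ inertL q, loc q ι ∈ N) {φ : GQ} (hφ : (padicPlace q).IsFrobeniusAt φ q)
    (hφC : φ ∈ C) : (loc q).range ≤ C := fun x hx => by
  rw [range_loc] at hx
  obtain ⟨i, ι, hι, n, hn, rfl⟩ := FA.TW.exists_frobenius_decomp hq.out
    (liesOverPrime_padicPlace q) hφ N (mem_LQ_iff_isOpen.1 hN) hx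
  obtain ⟨t, ht, rfl⟩ := ScholzReichardt.exists_loc_inert hι
  exact mul_mem (mul_mem (pow_mem hφC i) (hNC (hunr t ht))) (hNC hn)

theorem normalCore_le (σ : LevelIso H H') : H.normalCore ≤ H'.normalCore := fun s hs => by
  set N := H.normalCore ⊓ H'.normalCore
  have hN : N ∈ LQ.carrier := LQ.inf_mem (normalCore_mem σ.mem₁) (normalCore_mem σ.mem₂)
  obtain ⟨S, hS⟩ := exists_inertL_subset hN
  obtain ⟨r, A, φ, k, hr, hrS, hA, hφ, hks, j, hj⟩ := FA.Density.exists_frobenius_generating N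
    (mem_LQ_iff_isOpen.1 hN) s (S.image fun x : Nat.Primes => (x : ℕ))
  have : Fact r.Prime := ⟨hr⟩
  have hunr : ∀ ι ∈ inertL r, loc r ι ∈ N := fun ι hι =>
    hS ⟨r, hr⟩ (fun h => hrS (Finset.mem_image.2 ⟨_, h, rfl⟩)) ι hι
  obtain ⟨c, rfl⟩ := FA.TW.exists_smul_eq_of_liesOver hr (liesOverPrime_padicPlace r) hA
  have hφ' := FA.Density.isFrobeniusAt_smul hφ c⁻¹
  rw [inv_smul_smul, inv_inv] at hφ'
  have hφH : φ ∈ H.normalCore := by
    have := mul_mem (pow_mem hs j) hj.1
    rwa [mul_inv_cancel_left] at this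
  have h1 := range_loc_le_of_frobenius hN inf_le_left hunr hφ'
    ((Subgroup.normalCore_normal H).conj_mem' φ hφH c)
  have h2 : c⁻¹ * φ * c ∈ H'.normalCore := range_loc_le_normalCore σ h1 (by
    rw [range_loc]; exact hφ'.mem_decompositionSubgroup)
  have h3 : φ ∈ H'.normalCore := by
    have := (Subgroup.normalCore_normal H').conj_mem _ h2 c
    rwa [show c * (c⁻¹ * φ * c) * c⁻¹ = φ by group] at this
  have := mul_mem (pow_mem h3 k) hks.2
  rwa [mul_inv_cancel_left] at this

/-- **Isomorphic Galois groups have the same normal core.** -/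
theorem normalCore_eq (σ : LevelIso H H') : H.normalCore = H'.normalCore :=
  le_antisymm (normalCore_le σ) (normalCore_le σ.symm)

/-- Some prime splits completely. -/
theorem exists_split (hH : H ∈ LQ.carrier) :
    ∃ (r : ℕ) (_ : Fact r.Prime), (loc r).range ≤ H.normalCore := by
  have hN := normalCore_mem hH
  obtain ⟨S, hS⟩ := exists_inertL_subset hN
  obtain ⟨r, A, φ, k, hr, hrS, hA, hφ, -, j, hj⟩ := FA.Density.exists_frobenius_generating
    H.normalCore (mem_LQ_iff_isOpen.1 hN) 1 (S.image fun x : Nat.Primes => (x : ℕ))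
  have : Fact r.Prime := ⟨hr⟩
  refine ⟨r, inferInstance, ?_⟩
  obtain ⟨c, rfl⟩ := FA.TW.exists_smul_eq_of_liesOver hr (liesOverPrime_padicPlace r) hA
  have hφ' := FA.Density.isFrobeniusAt_smul hφ c⁻¹
  rw [inv_smul_smul, inv_inv] at hφ'
  rw [one_pow, inv_one, one_mul] at hj
  exact range_loc_le_of_frobenius hN le_rfl
    (fun ι hι => hS ⟨r, hr⟩ (fun h => hrS (Finset.mem_image.2 ⟨_, h, rfl⟩)) ι hι) hφ'
    ((Subgroup.normalCore_normal H).conj_mem' φ hj c)

theorem index_le (σ : LevelIso H H') : H.index ≤ H'.index := by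
  obtain ⟨r, hr, hsplit⟩ := exists_split σ.mem₁
  have := LQ.finiteIndex σ.mem₂
  have hDH : ∀ g, (decompAt r g) ≤ H.normalCore := fun g x hx => by
    have := (Subgroup.normalCore_normal H).conj_mem _ (hsplit (mem_decompAt.1 hx)) g
    rwa [show g * (g⁻¹ * x * g) * g⁻¹ = x by group] at this
  choose f hf using fun g : GQ => exists_map_eq (q := r) σ g
  have key : ∀ a b : GQ, (f a : GQ ⧸ H') = f b → (a : GQ ⧸ H) = b := fun a b hab => by
    set u : H' := ⟨(f a)⁻¹ * f b, QuotientGroup.eq.1 hab⟩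
    obtain ⟨x, hxD, hx1⟩ := exists_mem_decompAt_ne_one (q := r) b⁻¹
    have hxH : x ∈ H := Subgroup.normalCore_le H (hDH _ hxD)
    set y := σ.e ⟨x, hxH⟩
    have hy : y ∈ decIn H' r (f b) := ((hf b).1 _).2 (mem_decIn.2 hxD)
    have hy' : u * y * u⁻¹ ∈ decIn H' r (f a) := by
      rw [mem_decIn, mem_decompAt, inv_inv]
      have := mem_decompAt.1 (mem_decIn.1 hy)
      rw [inv_inv] at this
      convert this using 1
      simp only [Subgroup.coe_mul, InvMemClass.coe_inv, u]
      group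
    set w := σ.e.symm u
    have hz : σ.e (w * ⟨x, hxH⟩ * w⁻¹) = u * y * u⁻¹ := by
      rw [map_mul, map_mul, map_inv, show σ.e w = u from σ.e.apply_symm_apply u]
    have hz' := mem_decIn.1 (((hf a).1 _).1 (hz ▸ hy'))
    have hz2 : (w : GQ) * x * (w : GQ)⁻¹ ∈ decompAt r ((w : GQ) * b⁻¹) := mem_decompAt.2 (by
      have := mem_decompAt.1 hxD
      convert this using 1
      group)
    have h := (eq_of_mem_decompAt hz2 hz' fun h => hx1 (conj_eq_one_iff.1 h)).2
    obtain ⟨t, ht⟩ := h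
    refine (QuotientGroup.eq.2 ?_).symm
    have h4 : b⁻¹ * loc r t * b ∈ H := (Subgroup.normalCore_le H) (hDH b⁻¹ (mem_decompAt.2
      ⟨t, by group⟩))
    have e : b⁻¹ * a = (b⁻¹ * loc r t * b)⁻¹ * (w : GQ)⁻¹ := by
      rw [ht]
      group
    rw [e]
    exact mul_mem (inv_mem h4) (inv_mem w.2)
  refine Nat.card_le_card_of_injective (fun c : GQ ⧸ H => (f c.out : GQ ⧸ H')) fun c d hcd => ?_
  have := key _ _ hcd
  rwa [QuotientGroup.out_eq', QuotientGroup.out_eq'] at this

/-- **Isomorphic Galois groups have the same index.** -/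
theorem index_eq (σ : LevelIso H H') : H.index = H'.index :=
  le_antisymm (index_le σ) (index_le σ.symm)

/-- **Neukirch's theorem** in group form. -/
theorem eq_of_levelIso [hn : H.Normal] (σ : LevelIso H H') : H = H' := by
  have hle : H ≤ H' := by
    conv_lhs => rw [← Subgroup.normalCore_eq_self H]
    rw [normalCore_eq σ]
    exact Subgroup.normalCore_le H'
  refine le_antisymm hle (Subgroup.relIndex_eq_one.1 ?_)
  have h := Subgroup.relIndex_mul_index hle
  rw [← index_eq σ] at h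
  exact Nat.eq_of_mul_eq_mul_right (Nat.pos_of_ne_zero (LQ.finiteIndex σ.mem₁).index_ne_zero)
    (h.trans (one_mul _).symm)

end Fermat.Agent.Neukirch
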