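import Fermat.Agent.Neukirch.Topology
import Fermat.Agent.GalCoh.UnrLocal
import Fermat.Agent.GalCoh.CycloGlobal
import Fermat.Agent.ScholzReichardt.Characters
import Fermat.Agent.ArtinSchreier.Rat

/-!
# Wild inertia

The automorphisms `σ` with `‖σ x - x‖ < ‖x‖` for every `x ≠ 0` form a normal subgroup of the Galois
group of `ℚ_q` whose finite images are `q`-groups, and which meets every level non-trivially.
-/

set_option autoImplicit false
set_option linter.unusedSectionVars false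

noncomputable section

namespace Fermat.Agent.Neukirch

open FA.GalCoh

variable {q : ℕ} [hq : Fact q.Prime]

theorem norm_sum_lt {ι : Type*} {s : Finset ι} {f : ι → PadicAlgCl q} {C : ℝ} (hC : 0 < C)
    (h : ∀ i ∈ s, ‖f i‖ < C) : ‖∑ i ∈ s, f i‖ < C := by
  induction s using Finset.cons_induction with
  | empty => simpa using hC
  | cons a s ha ih =>
    rw [Finset.sum_cons]
    exact (IsUltrametricDist.norm_add_le_max _ _).trans_lt
      (max_lt (h a (Finset.mem_cons_self a s)) (ih fun i hi => h i (Finset.mem_cons_of_mem hi)))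

variable (q) in
/-- The wild inertia group of `ℚ_q`. -/
def wildL : Subgroup (LG q) where
  carrier := {σ | ∀ x : PadicAlgCl q, x ≠ 0 → ‖σ x - x‖ < ‖x‖}
  one_mem' x hx := by simpa using norm_pos_iff.2 hx
  mul_mem' {σ τ} hσ hτ x hx := by
    have h1 := hσ (τ x) ((_root_.map_ne_zero τ).2 hx)
    rw [norm_algEquiv τ x] at h1
    rw [AlgEquiv.mul_apply, show σ (τ x) - x = (σ (τ x) - τ x) + (τ x - x) by abel]
    exact (IsUltrametricDist.norm_add_le_max _ _).trans_lt (max_lt h1 (hτ x hx))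
  inv_mem' {σ} hσ x hx := by
    have h1 := hσ (σ⁻¹ x) ((_root_.map_ne_zero σ⁻¹).2 hx)
    rw [show σ (σ⁻¹ x) = x from σ.apply_symm_apply x, norm_algEquiv σ⁻¹ x, norm_sub_rev] at h1
    exact h1

theorem mem_wildL {σ : LG q} :
    σ ∈ wildL q ↔ ∀ x : PadicAlgCl q, x ≠ 0 → ‖σ x - x‖ < ‖x‖ := Iff.rfl

instance normal_wildL : (wildL q).Normal := ⟨fun σ hσ τ x hx => by
  have h1 := hσ (τ⁻¹ x) ((_root_.map_ne_zero τ⁻¹).2 hx)
  rw [norm_algEquiv τ⁻¹ x] at h1
  rw [AlgEquiv.mul_apply, AlgEquiv.mul_apply]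
  conv_lhs => arg 1; arg 2; rw [show x = τ (τ⁻¹ x) from (τ.apply_symm_apply x).symm]
  rwa [← map_sub, norm_algEquiv]⟩

/-- Wild inertia has no non-trivial image of order prime to `q`. -/
theorem apply_eq_of_pow {σ : LG q} (hσ : σ ∈ wildL q) {r : ℕ} (hr : ¬ q ∣ r) {x : PadicAlgCl q}
    (hx : (σ ^ r) x = x) : σ x = x := by
  by_contra hne
  set a := σ x - x
  have ha : a ≠ 0 := sub_ne_zero.2 hne
  have hsum : ∑ i ∈ Finset.range r, (σ ^ i) a = 0 := by
    have h : ∀ i : ℕ, (σ ^ i) a = (σ ^ (i + 1)) x - (σ ^ i) x := fun i => by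
      rw [map_sub, pow_succ, AlgEquiv.mul_apply]
    rw [Finset.sum_congr rfl fun i _ => h i, Finset.sum_range_sub (fun i => (σ ^ i) x), hx,
      pow_zero, AlgEquiv.one_apply, sub_self]
  have hlt := norm_sum_lt (s := Finset.range r) (f := fun i => (σ ^ i) a - a) (norm_pos_iff.2 ha)
    fun i _ => pow_mem hσ i a ha
  rw [Finset.sum_sub_distrib, hsum, zero_sub, norm_neg, Finset.sum_const, Finset.card_range,
    nsmul_eq_mul, norm_mul, norm_natCast_eq_one hr, one_mul] at hlt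
  exact lt_irrefl _ hlt

/-- The finite images of wild inertia are `q`-groups. -/
theorem exists_pow_mem_wildL {σ : LG q} (hσ : σ ∈ wildL q) {N : Subgroup (LG q)}
    (hN : N ∈ (LL q).carrier) : ∃ k : ℕ, σ ^ q ^ k ∈ N := by
  obtain ⟨E, hE, hle⟩ := hN
  obtain ⟨n, hn, -, hmem⟩ := Subgroup.exists_pow_mem_of_index_ne_zero
    ((LL q).finiteIndex (fixingSubgroup_mem_fieldLevels E)).index_ne_zero σ
  obtain ⟨k, r, hr, he⟩ := Nat.exists_eq_pow_mul_and_not_dvd hn.ne' q hq.out.ne_one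
  refine ⟨k, hle ((IntermediateField.mem_fixingSubgroup_iff _ _).2 fun x hx => ?_)⟩
  refine apply_eq_of_pow (pow_mem hσ _) hr ?_
  rw [← pow_mul, ← he]
  exact (IntermediateField.mem_fixingSubgroup_iff _ _).1 hmem x hx

/-! ### Existence -/

theorem norm_sub_one_lt {v : PadicAlgCl q} (hv : ‖v‖ ≤ 1) (h : ‖v ^ q - 1‖ < 1) :
    ‖v - 1‖ < 1 := by
  set e := v - 1
  have he : ‖e‖ ≤ 1 := by
    rw [show e = v + -1 from sub_eq_add_neg v 1]
    exact norm_add_le_of_le hv (by rw [norm_neg, norm_one])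
  by_contra hne
  have he1 : ‖e‖ = 1 := le_antisymm he (not_lt.1 hne)
  obtain ⟨n, hn⟩ : ∃ n, q = n + 1 := ⟨q - 1, by have := hq.out.one_lt; omega⟩
  have hexp : v ^ q - 1 - e ^ q
      = ∑ i ∈ Finset.range n, e ^ (i + 1) * (q.choose (i + 1) : PadicAlgCl q) := by
    have key : (e + 1) ^ (n + 1) - 1 - e ^ (n + 1)
        = ∑ i ∈ Finset.range n, e ^ (i + 1) * ((n + 1).choose (i + 1) : PadicAlgCl q) := by
      rw [add_pow, Finset.sum_range_succ, Finset.sum_range_succ', Nat.choose_self,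
        Nat.choose_zero_right]
      simp only [one_pow, mul_one, pow_zero, Nat.cast_one]
      ring
    rw [← hn, show e + 1 = v from sub_add_cancel v 1] at key
    exact key
  have hlt : ‖v ^ q - 1 - e ^ q‖ < 1 := by
    rw [hexp]
    refine norm_sum_lt one_pos fun i hi => ?_
    obtain ⟨m, hm⟩ := hq.out.dvd_choose_self (Nat.succ_ne_zero i)
      (show i + 1 < q by have := Finset.mem_range.1 hi; omega)
    rw [norm_mul, norm_pow, he1, one_pow, one_mul, hm, Nat.cast_mul, norm_mul]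
    exact (mul_le_of_le_one_right (norm_nonneg _)
      (IsUltrametricDist.norm_natCast_le_one _ m)).trans_lt norm_q_lt_one
  have : ‖e ^ q‖ < 1 := by
    rw [show e ^ q = (v ^ q - 1) + -(v ^ q - 1 - e ^ q) by ring]
    exact (IsUltrametricDist.norm_add_le_max _ _).trans_lt (max_lt h (by rwa [norm_neg]))
  rw [norm_pow, he1, one_pow] at this
  exact lt_irrefl _ this

theorem norm_sub_one_lt_of_pow {v : PadicAlgCl q} (hv : ‖v‖ ≤ 1) {k : ℕ}
    (h : ‖v ^ q ^ k - 1‖ < 1) : ‖v - 1‖ < 1 := by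
  induction k with
  | zero => simpa using h
  | succ k ih =>
    refine ih (norm_sub_one_lt ?_ (by rwa [← pow_mul, ← pow_succ]))
    rw [norm_pow]
    exact pow_le_one₀ (norm_nonneg _) hv

/-- Inertia fixes the residues. -/
theorem norm_sub_lt_of_mem_inertL {ι : LG q} (hι : ι ∈ inertL q) {x : PadicAlgCl q}
    (hx : ‖x‖ ≤ 1) : ‖ι x - x‖ < 1 := by
  obtain ⟨y, hy⟩ := exists_iota_close x one_pos
  have hy1 : ‖padicEmbedding q y‖ ≤ 1 := by
    rw [show padicEmbedding q y = (padicEmbedding q y - x) + x by ring]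
    exact norm_add_le_of_le hy.le hx
  rw [show ι x - x = (ι (padicEmbedding q y) - padicEmbedding q y)
      + ((padicEmbedding q y - x) - ι (padicEmbedding q y - x)) by rw [map_sub]; ring]
  refine (IsUltrametricDist.norm_add_le_max _ _).trans_lt
    (max_lt (sub_lt_of_mem_inertL hι hy1) ?_)
  rw [sub_eq_add_neg]
  refine (IsUltrametricDist.norm_add_le_max _ _).trans_lt (max_lt hy ?_)
  rwa [norm_neg, norm_algEquiv]

/-- An inert element whose orbits have `q`-power period is wild. -/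
theorem mem_wildL_of_inert {σ : LG q} (hσ : ∀ x : PadicAlgCl q, ‖x‖ ≤ 1 → ‖σ x - x‖ < 1)
    (hper : ∀ x : PadicAlgCl q, ∃ k : ℕ, (σ ^ q ^ k) x = x) : σ ∈ wildL q := fun x hx => by
  have hx0 : 0 < ‖x‖ := norm_pos_iff.2 hx
  set v := σ x / x
  have hnorm : ∀ i : ℕ, ‖(σ ^ i) x / x‖ = 1 := fun i => by
    rw [norm_div, norm_algEquiv, div_self hx0.ne']
  have hv : ‖v‖ = 1 := by
    rw [show v = (σ ^ 1) x / x by rw [pow_one]]
    exact hnorm 1
  have hpow : ∀ i : ℕ, ‖(σ ^ i) x / x - v ^ i‖ < 1 := fun i => by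
    induction i with
    | zero => simp [div_self hx]
    | succ i ih =>
      have e : (σ ^ (i + 1)) x / x - v ^ (i + 1)
          = (σ ((σ ^ i) x / x) - (σ ^ i) x / x) * v + ((σ ^ i) x / x - v ^ i) * v := by
        have hne : σ x ≠ 0 := (_root_.map_ne_zero σ).2 hx
        rw [pow_succ', AlgEquiv.mul_apply, map_div₀, pow_succ]
        simp only [v]
        field_simp
        ring
      rw [e]
      refine (IsUltrametricDist.norm_add_le_max _ _).trans_lt (max_lt ?_ ?_) <;>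
        rw [norm_mul, hv, mul_one]
      · exact hσ _ (hnorm i).le
      · exact ih
  obtain ⟨k, hk⟩ := hper x
  have h1 := hpow (q ^ k)
  rw [hk, div_self hx, norm_sub_rev] at h1
  have h2 := norm_sub_one_lt_of_pow hv.le h1
  rwa [show v - 1 = (σ x - x) / x by rw [sub_div, div_self hx], norm_div, div_lt_one hx0] at h2

/-- Wild inertia is non-trivial. -/
theorem exists_mem_wildL_ne_one : ∃ σ ∈ wildL q, σ ≠ 1 := by
  have hco : Nat.Coprime (1 + q) (q ^ 2) :=
    Nat.Coprime.pow_right 2 (Nat.coprime_add_self_left.2 (Nat.coprime_one_left q))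
  set u := ZMod.unitOfCoprime (1 + q) hco
  have hu1 : u ≠ 1 := fun h => by
    have h1 : ((1 + q : ℕ) : ZMod (q ^ 2)) = ((1 : ℕ) : ZMod (q ^ 2)) := by
      rw [Nat.cast_one, ← ZMod.coe_unitOfCoprime (1 + q) hco]
      exact congrArg Units.val h
    have h2 := Nat.one_lt_pow two_ne_zero hq.out.one_lt
    have h3 := (ZMod.natCast_eq_natCast_iff' _ _ _).1 h1
    rw [Nat.mod_eq_of_lt h2, Nat.mod_eq_of_lt
      (show 1 + q < q ^ 2 by have := hq.out.two_le; nlinarith)] at h3
    have := hq.out.pos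
    omega
  have huq : u ^ q = 1 := by
    refine Units.ext ?_
    rw [Units.val_pow_eq_pow_val, ZMod.coe_unitOfCoprime, Units.val_one, Nat.cast_add,
      Nat.cast_one]
    obtain ⟨r, hr⟩ := exists_add_pow_prime_eq hq.out (1 : ZMod (q ^ 2)) (q : ZMod (q ^ 2))
    have h0 : (q : ZMod (q ^ 2)) ^ 2 = 0 := by rw [← Nat.cast_pow, ZMod.natCast_self]
    obtain ⟨m, hm⟩ := Nat.exists_eq_add_of_le hq.out.two_le
    rw [hr, one_pow, mul_one, ← pow_two, h0, zero_mul, add_zero, hm, pow_add, ← hm, h0, zero_mul,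
      add_zero]
  obtain ⟨ι, hι, hιu⟩ := ScholzReichardt.exists_inertia_cycMod_eq (p := q) two_pos u
  obtain ⟨N₀, hN₀, hN₀u⟩ : ∃ N₀ ∈ (LL q).carrier, ∀ s ∈ N₀,
      ScholzReichardt.cycMod q 2 (loc q s) = 1 := by
    obtain ⟨N₀, hN₀, hle⟩ :=
      compat_loc (q := q) _ (mem_LQ_iff_isOpen.2 (ScholzReichardt.isOpen_ker_cycMod (p := q) 2))
    exact ⟨N₀, hN₀, fun s hs => MonoidHom.mem_ker.1 (hle hs)⟩
  let Idx := {N : Subgroup (LG q) // N ∈ (LL q).carrier ∧ N.Normal}
  let C : Idx → Set (LG q) := fun N =>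
    (⋂ x : {x : PadicAlgCl q // ‖x‖ ≤ 1}, {σ : LG q | ‖σ x.1 - x.1‖ < 1}) ∩
      {σ | ScholzReichardt.cycMod q 2 (loc q σ) = u} ∩ {σ | ∃ k : ℕ, σ ^ q ^ k ∈ N.1}
  have hclosed : ∀ N, IsClosed (C N) := fun N => by
    refine ((isClosed_iInter fun x => ?_).inter ?_).inter ?_
    · obtain ⟨M, hM, hMx⟩ :=
        (galAct_fieldLevels (F := ℚ_[q]) (Ω := PadicAlgCl q)).smooth x.1
      refine isClosed_setOf_of_const hM fun g s hs => ?_
      rw [AlgEquiv.mul_apply, show s x.1 = x.1 from hMx s hs]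
    · refine isClosed_setOf_of_const hN₀ fun g s hs => ?_
      rw [map_mul, map_mul, hN₀u s hs, mul_one]
    · have := N.2.2
      refine isClosed_setOf_of_const N.2.1 fun g s hs => exists_congr fun k => ?_
      rw [← QuotientGroup.eq_one_iff, ← QuotientGroup.eq_one_iff, QuotientGroup.mk_pow,
        QuotientGroup.mk_pow, QuotientGroup.mk_mul, (QuotientGroup.eq_one_iff s).2 hs, mul_one]
  have hne : ∀ N, (C N).Nonempty := fun N => by
    obtain ⟨n, hn, -, hmem⟩ := Subgroup.exists_pow_mem_of_index_ne_zero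
      ((LL q).finiteIndex N.2.1).index_ne_zero ι
    obtain ⟨k, r, hr, he⟩ := Nat.exists_eq_pow_mul_and_not_dvd hn.ne' q hq.out.ne_one
    obtain ⟨t, -, ht⟩ := Nat.exists_mul_mod_eq_one_of_coprime
      (hq.out.coprime_iff_not_dvd.2 hr).symm hq.out.one_lt
    refine ⟨ι ^ (r * t), ⟨Set.mem_iInter.2 fun x =>
      norm_sub_lt_of_mem_inertL (pow_mem hι _) x.2, ?_⟩, k, ?_⟩
    · show ScholzReichardt.cycMod q 2 (loc q (ι ^ (r * t))) = u
      rw [map_pow, map_pow, hιu, pow_eq_pow_mod _ huq, ht, pow_one]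
    · rw [← pow_mul, show r * t * q ^ k = n * t by rw [he]; ring, pow_mul]
      exact pow_mem hmem t
  have : Nonempty Idx := ⟨⟨⊤, (LL q).top_mem, inferInstance⟩⟩
  have hdir : Directed (· ⊇ ·) C := fun N N' => by
    have := N.2.2
    have := N'.2.2
    exact ⟨⟨N.1 ⊓ N'.1, (LL q).inf_mem N.2.1 N'.2.1, inferInstance⟩,
      fun σ hσ => ⟨hσ.1, hσ.2.imp fun _ h => h.1⟩, fun σ hσ => ⟨hσ.1, hσ.2.imp fun _ h => h.2⟩⟩
  obtain ⟨σ, hσ⟩ := IsCompact.nonempty_iInter_of_directed_nonempty_isCompact_isClosed C hdir hne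
    (fun N => (hclosed N).isCompact) hclosed
  rw [Set.mem_iInter] at hσ
  have hσ0 := hσ ⟨⊤, (LL q).top_mem, inferInstance⟩
  refine ⟨σ, mem_wildL_of_inert (fun x hx => Set.mem_iInter.1 hσ0.1.1 ⟨x, hx⟩) fun x => ?_,
    fun h1 => hu1 ?_⟩
  · obtain ⟨M, hM, hMx⟩ := (galAct_fieldLevels (F := ℚ_[q]) (Ω := PadicAlgCl q)).smooth x
    obtain ⟨N, hN, hle, hn⟩ := (LL q).exists_normal hM
    obtain ⟨k, hk⟩ := (hσ ⟨N, hN, hn⟩).2
    exact ⟨k, hMx _ (hle hk)⟩
  · have h2 : ScholzReichardt.cycMod q 2 (loc q σ) = u := hσ0.1.2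
    rw [← h2, h1, map_one, map_one]

/-- The Galois group of `ℚ_q` is infinite. -/
theorem infinite_LG : Infinite (LG q) :=
  Infinite.of_injective (fun k : ℕ => frobL q ^ k) fun a b hab => by
    have h1 := congrArg (frobExp (a + b + 1)) hab
    rw [frobExp_frobL_pow, frobExp_frobL_pow, ZMod.natCast_eq_natCast_iff',
      Nat.mod_eq_of_lt (by omega), Nat.mod_eq_of_lt (by omega)] at h1
    exact h1

/-- The Galois group of `ℚ_q` has no non-trivial finite normal subgroup. -/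
theorem eq_bot_of_finite_normal (W : Subgroup (LG q)) [W.Normal] [Finite W] : W = ⊥ := by
  by_contra hne
  obtain ⟨σ, hσW, hσ1⟩ : ∃ σ ∈ W, σ ≠ 1 := by
    by_contra h
    push Not at h
    exact hne ((Subgroup.eq_bot_iff_forall W).2 h)
  have hfin : IsOfFinOrder (loc q σ) :=
    (loc q).isOfFinOrder (Submonoid.isOfFinOrder_coe.2 (isOfFinOrder_of_finite (⟨σ, hσW⟩ : W)))
  obtain ⟨ι, hι⟩ := FA.ArtinSchreier.exists_embedding_of_isOfFinOrder hfin fun h =>
    hσ1 (loc_injective (h.trans (map_one (loc q)).symm))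
  let φ : LG q →* MulAut W := MulAut.conjNormal
  have hker : ∀ g ∈ φ.ker, g = 1 ∨ g = σ := fun g hg => by
    have h1 := congrArg Subtype.val (DFunLike.congr_fun (MonoidHom.mem_ker.1 hg) ⟨σ, hσW⟩)
    rw [MulAut.conjNormal_apply, MulAut.one_apply] at h1
    have h2 := mul_inv_eq_iff_eq_mul.1 h1
    rcases FA.ArtinSchreier.centralizer_conj hι
      (show loc q g * loc q σ = loc q σ * loc q g by rw [← map_mul, ← map_mul, h2]) with h | h
    · exact Or.inl (loc_injective (h.trans (map_one (loc q)).symm))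
    · exact Or.inr (loc_injective h)
  have : Finite (LG q ⧸ φ.ker) := Finite.of_injective _ (QuotientGroup.kerLift_injective φ)
  have : Finite φ.ker := (Set.Finite.subset (Set.toFinite {1, σ}) fun g hg => hker g hg).to_subtype
  have : Finite (LG q) :=
    Finite.of_equiv _ (Subgroup.groupEquivQuotientProdSubgroup (s := φ.ker)).symm
  exact (infinite_LG (q := q)).not_finite this

/-- **Wild inertia meets every level non-trivially.** -/
theorem exists_mem_wildL_inf {V : Subgroup (LG q)} (hV : V ∈ (LL q).carrier) :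
    ∃ a ∈ wildL q, a ∈ V ∧ a ≠ 1 := by
  by_contra! h
  have := (LL q).finiteIndex hV
  have hinj : Function.Injective fun w : wildL q => ((w : LG q) : LG q ⧸ V) := fun a b hab => by
    refine Subtype.ext (inv_mul_eq_one.1 ?_)
    exact h _ (mul_mem (inv_mem a.2) b.2) (QuotientGroup.eq.1 hab)
  have : Finite (wildL q) := Finite.of_injective _ hinj
  obtain ⟨σ, hσ, hne⟩ := exists_mem_wildL_ne_one (q := q)
  exact hne (Subgroup.mem_bot.1 (eq_bot_of_finite_normal (wildL q) ▸ hσ))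

end Fermat.Agent.Neukirch
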