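import Fermat.Agent.Neukirch.Carrier
import Fermat.Agent.Neukirch.Wild
import Fermat.Agent.Neukirch.Restriction

/-!
# The local correspondence

An injective homomorphism of an open subgroup of the Galois group of `ℚ_l` into the absolute
Galois group of `ℚ` takes its values in the decomposition group of exactly one place.
-/

set_option autoImplicit false
set_option linter.unusedSectionVars false

noncomputable section

namespace Fermat.Agent.Neukirch

open FA.GalCoh SolvableOverCyclotomic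

/-- A normal `p`-subgroup lies in every subgroup of index prime to `p`. -/
theorem le_of_isPGroup_of_not_dvd {G : Type*} [Group G] [Finite G] {p : ℕ} [hp : Fact p.Prime]
    {R Q : Subgroup G} [R.Normal] (hR : IsPGroup p R) (hQ : ¬ p ∣ Q.index) : R ≤ Q := by
  obtain ⟨S⟩ : Nonempty (Sylow p Q) := Sylow.nonempty
  set P := (S : Subgroup Q).map Q.subtype
  have hPQ : P ≤ Q := Subgroup.map_subtype_le _
  have hP : ¬ p ∣ P.index := by
    rw [← Subgroup.relIndex_mul_index hPQ, show P.relIndex Q = (S : Subgroup Q).index from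
      congrArg Subgroup.index (Subgroup.comap_map_eq_self_of_injective Q.subtype_injective _)]
    exact fun h => (hp.out.dvd_mul.1 h).elim S.not_dvd_index hQ
  obtain ⟨k, hk⟩ := (hR.to_sup_of_normal_left (S.isPGroup'.map Q.subtype)).index
    (P.subgroupOf (R ⊔ P))
  have hk0 : k = 0 := by
    by_contra hne
    have h1 : P.relIndex (R ⊔ P) ∣ P.index :=
      Dvd.intro _ (Subgroup.relIndex_mul_index le_sup_right)
    rw [show P.relIndex (R ⊔ P) = p ^ k from hk] at h1
    exact hP ((dvd_pow_self p hne).trans h1)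
  rw [hk0, pow_zero, Subgroup.index_eq_one, Subgroup.subgroupOf_eq_top] at hk
  exact (le_sup_left.trans hk).trans hPQ

variable {l : ℕ} [hl : Fact l.Prime]

theorem fixMu_chi {p : ℕ} [Fact p.Prime] {m : ℕ} (h : p ∣ m) :
    ∀ x ∈ fixMu m, (cycQ p).χ x = 1 := fun _ hx => cycloChar_eq_one h hx

set_option maxHeartbeats 800000 in
-- nested subgroups of the Galois group are slow to unify
/-- The image of wild inertia lies in the decomposition group carrying the class. -/
theorem wildL_mem_decompAt (T : Transport l l)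
    (K : KumData ((LL l).sub T.V) (PadicAlgCl l) l) {q : ℕ} [Fact q.Prime] {g : GQ}
    (hg : ∀ H', T.Between H' → ¬ T.NullAt H' q g)
    (a : T.V) (ha : (a : LG l) ∈ wildL l) : T.j a ∈ decompAt q g⁻¹ := by
  by_contra hne
  let B : Subgroup (LG l) := ((decompAt q g⁻¹).comap T.j).map T.V.subtype
  have := compactSpace_level T.mem_V
  have hB : IsClosed (B : Set (LG l)) := by
    rw [Subgroup.coe_map]
    exact ((((isClosed_decompAt g⁻¹).preimage (continuous_of_compat T.compat))).isCompact.image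
      continuous_subtype_val).isClosed
  obtain ⟨U, hU, -, haU⟩ := exists_level_mul_notMem (C := {(a : LG l)}) isCompact_singleton hB
    fun x hx hxB => hne (by
      obtain ⟨b, hb, e⟩ := hxB
      rw [show a = b from Subtype.ext ((Set.mem_singleton_iff.1 hx).symm.trans e.symm)]
      exact hb)
  obtain ⟨U', hU', hle, hn⟩ := (LL l).exists_normal ((LL l).inf_mem hU T.mem_V)
  have hU'V : U' ≤ T.V := fun x hx => (hle hx).2
  set V' := B ⊔ U'
  have hV'V : V' ≤ T.V := sup_le (Subgroup.map_subtype_le _) hU'V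
  have hV' : V' ∈ (LL l).carrier := by
    obtain ⟨F, hF, hFle⟩ := hU'
    exact ⟨F, hF, hFle.trans le_sup_right⟩
  have hidx : ¬ l ∣ V'.relIndex T.V := not_dvd_relIndex_of_res_ne_zero T.mem_V hV' K hV'V
    (T.res_ne_zero hg hV' hV'V fun b hb => le_sup_left (b := U') (show (b : LG l) ∈ B from
      ⟨b, hb, rfl⟩))
  have := (LL l).finiteIndex hU'
  let π : T.V →* T.V ⧸ U'.subgroupOf T.V := QuotientGroup.mk' _
  have hker : π.ker ≤ V'.subgroupOf T.V := by
    rw [QuotientGroup.ker_mk']
    exact Subgroup.comap_mono le_sup_right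
  let R := ((wildL l).subgroupOf T.V).map π
  have : R.Normal := Subgroup.Normal.map inferInstance π (QuotientGroup.mk'_surjective _)
  have hR : IsPGroup l R := by
    rintro ⟨_, w, hw, rfl⟩
    obtain ⟨k, hk⟩ := exists_pow_mem_wildL (Subgroup.mem_subgroupOf.1 hw) hU'
    refine ⟨k, Subtype.ext ?_⟩
    show π w ^ l ^ k = 1
    rw [← map_pow]
    exact (QuotientGroup.eq_one_iff _).2 (Subgroup.mem_subgroupOf.2 hk)
  have hRQ : R ≤ (V'.subgroupOf T.V).map π := le_of_isPGroup_of_not_dvd hR (by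
    rwa [(V'.subgroupOf T.V).index_map_eq (QuotientGroup.mk'_surjective _) hker])
  have haV' : a ∈ V'.subgroupOf T.V := by
    rw [← Subgroup.comap_map_eq_self hker]
    exact hRQ ⟨a, Subgroup.mem_subgroupOf.2 ha, rfl⟩
  obtain ⟨b, hb, u, hu, hbu⟩ :=
    Subgroup.mem_sup_of_normal_right.1 (Subgroup.mem_subgroupOf.1 haV')
  refine haU _ (Set.mem_singleton _) u⁻¹ (inv_mem (hle hu).1) ?_
  rw [← hbu, mul_inv_cancel_right]
  exact hb

set_option maxHeartbeats 800000 in
-- nested subgroups of the Galois group are slow to unify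
/-- **The local correspondence**: an injective homomorphism of an open subgroup of `G_{ℚ_l}` into
`G_ℚ` takes its values in a decomposition group. -/
theorem exists_decompAt {U₀ : Subgroup (LG l)} (hU₀ : U₀ ∈ (LL l).carrier) {j : U₀ →* GQ}
    (hj : Compat LQ ((LL l).sub U₀) j) (hinj : Function.Injective j) :
    ∃ (q : ℕ) (_ : Fact q.Prime) (g : GQ), ∀ τ, j τ ∈ decompAt q g := by
  obtain ⟨_, ⟨N₁, hN₁, rfl⟩, hle₁⟩ := hj _ (fixMu_mem (Nat.mul_pos four_pos hl.out.pos))
  obtain ⟨V, hV, hle, hn⟩ := (LL l).exists_normal ((LL l).inf_mem ((LL l).inf_mem hU₀ hN₁)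
    (hloc_mem (q := l) (fixMu_mem hl.out.pos) 1))
  have hVU : V ≤ U₀ := fun x hx => (hle hx).1.1
  let K : KumData ((LL l).sub V) (PadicAlgCl l) l :=
    (locKum ((cycQ l).kumData (fixMu l) (fixMu_chi dvd_rfl)) l 1).restrict fun x hx => (hle hx).2
  let jV : V →* GQ := j.comp (Subgroup.inclusion hVU)
  have hjV : Compat LQ ((LL l).sub V) jV := hj.comp (compat_inclusion hVU)
  obtain ⟨z, hz0, -, -⟩ := exists_generator_H2 hV K
  obtain ⟨Z, rfl⟩ := mk2_surjective z
  obtain ⟨_, ⟨N, hN, rfl⟩, hconst⟩ := Z.2.1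
  obtain ⟨M, hM, hMn, hker⟩ :=
    exists_comap_le hV hjV (hinj.comp (Subgroup.inclusion_injective hVU)) hN
  let T : Transport l l :=
    { V := V
      mem_V := hV
      j := jV
      compat := hjV
      inj := hinj.comp (Subgroup.inclusion_injective hVU)
      j_mem := fun a => hle₁ (Subgroup.mem_subgroupOf.2 (hle a.2).1.2)
      Z := Z
      N := N
      const := fun a a' s s' hs hs' => hconst a a' s s'
        (Subgroup.mem_subgroupOf.2 hs) (Subgroup.mem_subgroupOf.2 hs')
      M := M ⊓ fixMu (4 * l)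
      normal_M := inferInstance
      mem_M := LQ.inf_mem hM (fixMu_mem (Nat.mul_pos four_pos hl.out.pos))
      M_le := inf_le_right
      ker_le := fun a ha => hker a ha.1 }
  obtain ⟨q, hq, g, hg⟩ := T.exists_place hz0
  obtain ⟨a, haW, haV, ha1⟩ := exists_mem_wildL_inf hV
  refine ⟨q, hq, g⁻¹, fun τ => mem_decompAt_of_conj (wildL_mem_decompAt T K hg ⟨a, haV⟩ haW)
    (fun h => ha1 ?_) ?_⟩
  · exact congrArg Subtype.val
      (hinj.comp (Subgroup.inclusion_injective hVU) (h.trans (map_one jV).symm))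
  · have h1 := wildL_mem_decompAt T K hg
      ⟨(τ : LG l) * a * (τ : LG l)⁻¹, hn.conj_mem a haV τ⟩ (normal_wildL.conj_mem a haW τ)
    have h2 : (T.j ⟨(τ : LG l) * a * (τ : LG l)⁻¹, hn.conj_mem a haV τ⟩)
        = j τ * jV ⟨a, haV⟩ * (j τ)⁻¹ := by
      show j (Subgroup.inclusion hVU ⟨(τ : LG l) * a * (τ : LG l)⁻¹, _⟩) = _
      rw [show Subgroup.inclusion hVU ⟨(τ : LG l) * a * (τ : LG l)⁻¹, hn.conj_mem a haV τ⟩
        = τ * Subgroup.inclusion hVU ⟨a, haV⟩ * τ⁻¹ from Subtype.ext rfl, map_mul, map_mul,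
        map_inv]
      rfl
    rw [h2] at h1
    exact h1

/-- The place is unique. -/
theorem decompAt_unique {U₀ : Subgroup (LG l)} (hU₀ : U₀ ∈ (LL l).carrier) {j : U₀ →* GQ}
    (hinj : Function.Injective j) {q q' : ℕ} [Fact q.Prime] [Fact q'.Prime] {g g' : GQ}
    (h : ∀ τ, j τ ∈ decompAt q g) (h' : ∀ τ, j τ ∈ decompAt q' g') :
    q = q' ∧ g⁻¹ * g' ∈ (loc q).range := by
  obtain ⟨a, -, haU, ha1⟩ := exists_mem_wildL_inf hU₀
  exact eq_of_mem_decompAt (h ⟨a, haU⟩) (h' ⟨a, haU⟩)
    fun h1 => ha1 (congrArg Subtype.val (hinj (h1.trans (map_one j).symm)))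

end Fermat.Agent.Neukirch
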