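import Fermat.Agent.GalCoh.Bridge

/-!
# Levels and the Krull topology

Levels are the subgroups open for the Krull topology; compact sets are separated from closed ones
by a level, and an injective homomorphism compatible with levels reflects them.
-/

set_option autoImplicit false
set_option linter.unusedSectionVars false

noncomputable section

namespace Fermat.Agent.Neukirch

open FA.GalCoh
open scoped Topology

variable {F Ω : Type} [Field F] [Field Ω] [Algebra F Ω] [IsGalois F Ω]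

/-- Every neighbourhood of the identity contains a normal level. -/
theorem exists_normal_level_subset {s : Set (Ω ≃ₐ[F] Ω)} (hs : s ∈ 𝓝 1) :
    ∃ N ∈ (fieldLevels F Ω).carrier, N.Normal ∧ (N : Set (Ω ≃ₐ[F] Ω)) ⊆ s := by
  obtain ⟨E, hE, hEs⟩ := (krullTopology_mem_nhds_one_iff _ _ _).1 hs
  obtain ⟨N, hN, hle, hn⟩ := (fieldLevels F Ω).exists_normal (fixingSubgroup_mem_fieldLevels E)
  exact ⟨N, hN, hn, fun g hg => hEs (hle hg)⟩

theorem isOpen_level {N : Subgroup (Ω ≃ₐ[F] Ω)} (hN : N ∈ (fieldLevels F Ω).carrier) :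
    IsOpen (N : Set (Ω ≃ₐ[F] Ω)) := by
  obtain ⟨E, hE, hle⟩ := hN
  exact Subgroup.isOpen_mono hle (IntermediateField.fixingSubgroup_isOpen E)

theorem isClosed_level {N : Subgroup (Ω ≃ₐ[F] Ω)} (hN : N ∈ (fieldLevels F Ω).carrier) :
    IsClosed (N : Set (Ω ≃ₐ[F] Ω)) :=
  Subgroup.isClosed_of_isOpen _ (isOpen_level hN)

/-- The left translates of a level are open. -/
theorem isOpen_setOf_inv_mul_mem (x : Ω ≃ₐ[F] Ω) {N : Subgroup (Ω ≃ₐ[F] Ω)}
    (hN : N ∈ (fieldLevels F Ω).carrier) : IsOpen {y : Ω ≃ₐ[F] Ω | x⁻¹ * y ∈ N} :=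
  (isOpen_level hN).preimage (continuous_const.mul continuous_id)

/-- A property depending only on cosets of a level defines a closed set. -/
theorem isClosed_setOf_of_const {P : (Ω ≃ₐ[F] Ω) → Prop} {N : Subgroup (Ω ≃ₐ[F] Ω)}
    (hN : N ∈ (fieldLevels F Ω).carrier) (h : ∀ g s, s ∈ N → (P (g * s) ↔ P g)) :
    IsClosed {g | P g} := by
  rw [← isOpen_compl_iff, isOpen_iff_forall_mem_open]
  refine fun g hg => ⟨{y | g⁻¹ * y ∈ N}, fun y hy hy' => hg ?_, isOpen_setOf_inv_mul_mem g hN, by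
    show g⁻¹ * g ∈ N
    rw [inv_mul_cancel]
    exact one_mem N⟩
  have := (h g _ hy).1 (by rw [mul_inv_cancel_left]; exact hy')
  exact this

/-- Finitely many levels contain a normal one. -/
theorem exists_normal_level_le {ι : Type*} (t : Finset ι) (N : ι → Subgroup (Ω ≃ₐ[F] Ω))
    (hN : ∀ i ∈ t, N i ∈ (fieldLevels F Ω).carrier) :
    ∃ U ∈ (fieldLevels F Ω).carrier, U.Normal ∧ ∀ i ∈ t, U ≤ N i := by
  induction t using Finset.cons_induction with
  | empty => exact ⟨⊤, (fieldLevels F Ω).top_mem, inferInstance, by simp⟩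
  | cons a t ha ih =>
    obtain ⟨U, hU, -, hle⟩ := ih fun i hi => hN i (Finset.mem_cons_of_mem hi)
    obtain ⟨U', hU', hle', hn⟩ := (fieldLevels F Ω).exists_normal
      ((fieldLevels F Ω).inf_mem hU (hN a (Finset.mem_cons_self a t)))
    refine ⟨U', hU', hn, fun i hi => ?_⟩
    rcases Finset.mem_cons.1 hi with rfl | hi
    · exact hle'.trans inf_le_right
    · exact (hle'.trans inf_le_left).trans (hle i hi)

/-- A compact set disjoint from a closed one stays disjoint after translation by some level. -/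
theorem exists_level_mul_notMem {C J : Set (Ω ≃ₐ[F] Ω)} (hC : IsCompact C) (hJ : IsClosed J)
    (h : ∀ x ∈ C, x ∉ J) :
    ∃ U ∈ (fieldLevels F Ω).carrier, U.Normal ∧ ∀ x ∈ C, ∀ u ∈ U, x * u ∉ J := by
  have hex : ∀ x : C, ∃ U ∈ (fieldLevels F Ω).carrier, ∀ u ∈ U, (x : Ω ≃ₐ[F] Ω) * u ∉ J :=
    fun x => by
      have hnhds : (fun u => (x : Ω ≃ₐ[F] Ω) * u) ⁻¹' Jᶜ ∈ 𝓝 (1 : Ω ≃ₐ[F] Ω) :=
        (hJ.isOpen_compl.preimage (continuous_const.mul continuous_id)).mem_nhds
          (show (x : Ω ≃ₐ[F] Ω) * 1 ∈ Jᶜ by rw [mul_one]; exact h x x.2)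
      obtain ⟨U, hU, -, hsub⟩ := exists_normal_level_subset hnhds
      exact ⟨U, hU, fun u hu => hsub hu⟩
  choose U hU hUJ using hex
  obtain ⟨t, ht⟩ := hC.elim_finite_subcover (fun x : C => {y | (x : Ω ≃ₐ[F] Ω)⁻¹ * y ∈ U x})
    (fun x => isOpen_setOf_inv_mul_mem _ (hU x))
    (fun y hy => Set.mem_iUnion.2 ⟨⟨y, hy⟩, by
      show y⁻¹ * y ∈ U ⟨y, hy⟩
      rw [inv_mul_cancel]
      exact one_mem _⟩)
  obtain ⟨U', hU', hn, hle⟩ := exists_normal_level_le t U fun i _ => hU i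
  refine ⟨U', hU', hn, fun y hy u hu => ?_⟩
  obtain ⟨x, hx, hxy⟩ := Set.mem_iUnion₂.1 (ht hy)
  have := hUJ x _ (mul_mem hxy (hle x hx hu))
  rwa [← mul_assoc, mul_inv_cancel_left] at this

variable {U₀ : Subgroup (Ω ≃ₐ[F] Ω)} {j : U₀ →* GQ}

/-- A homomorphism compatible with levels is continuous. -/
theorem continuous_of_compat (hj : Compat LQ ((fieldLevels F Ω).sub U₀) j) : Continuous j := by
  refine continuous_of_continuousAt_one _ ?_
  rw [ContinuousAt, map_one]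
  intro s hs
  obtain ⟨M, hM, -, hMs⟩ := exists_normal_level_subset hs
  obtain ⟨_, ⟨N, hN, rfl⟩, hle⟩ := hj M hM
  exact Filter.mem_map.2 (Filter.mem_of_superset
    (((isOpen_level hN).preimage continuous_subtype_val).mem_nhds (one_mem N))
    fun τ hτ => hMs (hle (Subgroup.mem_subgroupOf.2 hτ)))

theorem compactSpace_level (hU₀ : U₀ ∈ (fieldLevels F Ω).carrier) : CompactSpace U₀ :=
  isCompact_iff_compactSpace.1 (isClosed_level hU₀).isCompact

theorem isClosed_image_of_compat (hU₀ : U₀ ∈ (fieldLevels F Ω).carrier)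
    (hj : Compat LQ ((fieldLevels F Ω).sub U₀) j) {C : Set U₀} (hC : IsClosed C) :
    IsClosed (j '' C) :=
  have := compactSpace_level hU₀
  (hC.isCompact.image (continuous_of_compat hj)).isClosed

/-- An injective homomorphism compatible with levels reflects them. -/
theorem exists_comap_le (hU₀ : U₀ ∈ (fieldLevels F Ω).carrier)
    (hj : Compat LQ ((fieldLevels F Ω).sub U₀) j) (hinj : Function.Injective j)
    {N : Subgroup (Ω ≃ₐ[F] Ω)} (hN : N ∈ (fieldLevels F Ω).carrier) :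
    ∃ M ∈ LQ.carrier, M.Normal ∧ ∀ τ : U₀, j τ ∈ M → (τ : Ω ≃ₐ[F] Ω) ∈ N := by
  have hC : IsClosed {τ : U₀ | (τ : Ω ≃ₐ[F] Ω) ∉ N} :=
    ((isOpen_level hN).preimage continuous_subtype_val).isClosed_compl
  have hmem : (j '' {τ : U₀ | (τ : Ω ≃ₐ[F] Ω) ∉ N})ᶜ ∈ 𝓝 (1 : GQ) :=
    (isClosed_image_of_compat hU₀ hj hC).isOpen_compl.mem_nhds fun ⟨τ, hτ, hτ1⟩ => hτ (by
      rw [hinj (hτ1.trans (map_one j).symm)]
      exact one_mem N)
  obtain ⟨M, hM, hn, hsub⟩ := exists_normal_level_subset hmem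
  exact ⟨M, hM, hn, fun τ hτ => by_contra fun hne => hsub hτ ⟨τ, hne, rfl⟩⟩

end Fermat.Agent.Neukirch
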