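import Fermat.Agent.Neukirch.Global
import Fermat.Agent.SemidirectGalois.Embedding
import Fermat.Agent.SolvableOverCyclotomic.Split

/-!
# Isomorphisms of Galois groups are conjugations

Uchida's argument: over a normal level `N` below `H` there is an extension with group
`(ℤ/5)[G_ℚ/N] ⋊ G_ℚ/N`; an isomorphism of levels sends each element of the module to a conjugate of
one of its multiples, and the vectors `e₁ + 2 e_h` force it to be a conjugation modulo `N`.
Compactness gives one conjugating element, and centralisers of levels are trivial.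
-/

set_option autoImplicit false
set_option linter.unusedSectionVars false

noncomputable section

namespace Fermat.Agent.Neukirch

open FA.GalCoh SolvableOverCyclotomic
open scoped Pointwise

variable {H H' : Subgroup GQ}

/-- **An isomorphism of levels fixes every normal level below its source.** -/
theorem LevelIso.mem_normal_iff (σ : LevelIso H H') {N : Subgroup GQ} [hn : N.Normal]
    (hN : N ∈ LQ.carrier) (hle : N ≤ H) (x : H) : (σ.e x : GQ) ∈ N ↔ (x : GQ) ∈ N := by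
  set N' := ((N.subgroupOf H).map σ.e.toMonoidHom).map H'.subtype
  have hN'H' : N' ≤ H' := Subgroup.map_subtype_le _
  have hN' : N' ∈ LQ.carrier := by
    obtain ⟨_, ⟨R, hR, rfl⟩, hRle⟩ := σ.compat' _ ⟨N, hN, rfl⟩
    obtain ⟨F, hF, hFle⟩ := LQ.inf_mem hR σ.mem₂
    exact ⟨F, hF, fun y hy => ⟨⟨y, (hFle hy).2⟩, ⟨_, hRle (x := ⟨y, (hFle hy).2⟩)
      (Subgroup.mem_subgroupOf.2 (hFle hy).1), σ.e.apply_symm_apply _⟩, rfl⟩⟩
  let eN : N ≃* N' := ((Subgroup.subgroupOfEquivOfLe hle).symm.trans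
    (σ.e.subgroupMap (N.subgroupOf H))).trans
      (Subgroup.equivMapOfInjective _ H'.subtype H'.subtype_injective)
  have hval : ∀ y : N, ((eN y : N') : GQ) = (σ.e ⟨y, hle y.2⟩ : H') := fun y => rfl
  have hc : Compat (LQ.sub N') (LQ.sub N) eN.toMonoidHom := by
    rintro _ ⟨R, hR, rfl⟩
    obtain ⟨_, ⟨R', hR', rfl⟩, hRle⟩ := σ.compat _ ⟨R, hR, rfl⟩
    refine ⟨_, ⟨R', hR', rfl⟩, fun y hy => Subgroup.mem_subgroupOf.2 ?_⟩
    show ((eN y : N') : GQ) ∈ R
    rw [hval]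
    exact Subgroup.mem_subgroupOf.1 (hRle (x := ⟨y, hle y.2⟩)
      (Subgroup.mem_subgroupOf.2 (Subgroup.mem_subgroupOf.1 hy)))
  have hc' : Compat (LQ.sub N) (LQ.sub N') eN.symm.toMonoidHom := by
    rintro _ ⟨R, hR, rfl⟩
    obtain ⟨_, ⟨R', hR', rfl⟩, hRle⟩ := σ.compat' _ ⟨R, hR, rfl⟩
    refine ⟨_, ⟨R', hR', rfl⟩, fun y hy => Subgroup.mem_subgroupOf.2 ?_⟩
    have h1 := hRle (x := ⟨y, hN'H' y.2⟩)
      (Subgroup.mem_subgroupOf.2 (Subgroup.mem_subgroupOf.1 hy))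
    have h2 : σ.e.symm ⟨y, hN'H' y.2⟩ = ⟨(eN.symm y : N), hle (eN.symm y).2⟩ := by
      rw [MulEquiv.symm_apply_eq]
      refine Subtype.ext ?_
      rw [← hval, eN.apply_symm_apply]
    rw [Subgroup.mem_comap, show σ.e.symm.toMonoidHom ⟨y, hN'H' y.2⟩ = _ from h2] at h1
    exact Subgroup.mem_subgroupOf.1 h1
  have heq : N = N' := eq_of_levelIso
    { mem₁ := hN, mem₂ := hN', e := eN, compat := hc, compat' := hc' }
  refine ⟨fun h => ?_, fun h => heq ▸ (⟨σ.e x, ⟨x, Subgroup.mem_subgroupOf.2 h, rfl⟩, rfl⟩ :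
    (σ.e x : GQ) ∈ N')⟩
  rw [heq] at h
  obtain ⟨_, ⟨z, hz, rfl⟩, hzx⟩ := h
  rw [← σ.e.injective (Subtype.ext hzx : σ.e z = σ.e x)]
  exact Subgroup.mem_subgroupOf.1 hz

/-- An element of a normal level below the source goes to a conjugate of one of its powers, modulo
any smaller normal level. -/
theorem LevelIso.exists_conj_pow (σ : LevelIso H H') {N N' : Subgroup GQ} [hn : N.Normal]
    [hn' : N'.Normal] (hle : N ≤ H) (hN' : N' ∈ LQ.carrier) (hle' : N' ≤ N)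
    {n : GQ} (hnN : n ∈ N) :
    ∃ (d : GQ) (i : ℕ),
      (σ.e ⟨n, hle hnN⟩ : GQ)⁻¹ * (d * n ^ i * d⁻¹) ∈ N' := by
  obtain ⟨S, hS⟩ := exists_inertL_subset hN'
  obtain ⟨r, A, φ, k, hr, hrS, hA, hφ, hks, j, hj⟩ := FA.Density.exists_frobenius_generating N'
    (mem_LQ_iff_isOpen.1 hN') n (S.image fun x : Nat.Primes => (x : ℕ))
  have : Fact r.Prime := ⟨hr⟩
  have hunr : ∀ ι ∈ inertL r, loc r ι ∈ N' := fun ι hι =>
    hS ⟨r, hr⟩ (fun h => hrS (Finset.mem_image.2 ⟨_, h, rfl⟩)) ι hι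
  obtain ⟨c, rfl⟩ := FA.TW.exists_smul_eq_of_liesOver hr (liesOverPrime_padicPlace r) hA
  have hφ' := FA.Density.isFrobeniusAt_smul hφ c⁻¹
  rw [inv_smul_smul, inv_inv] at hφ'
  -- the decomposition group modulo `N'`
  have hdec : ∀ x ∈ (loc r).range, ∃ i : ℕ, ((c⁻¹ * φ * c) ^ i)⁻¹ * x ∈ N' := fun x hx => by
    rw [range_loc] at hx
    obtain ⟨i, ι, hι, m, hm, rfl⟩ := FA.TW.exists_frobenius_decomp hr
      (liesOverPrime_padicPlace r) hφ' N' (mem_LQ_iff_isOpen.1 hN') hx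
    obtain ⟨t, ht, rfl⟩ := ScholzReichardt.exists_loc_inert hι
    refine ⟨i, ?_⟩
    rw [mul_assoc ((c⁻¹ * φ * c) ^ i), inv_mul_cancel_left]
    exact mul_mem (hunr t ht) hm
  have hφN : φ ∈ N := by
    have := mul_mem (pow_mem hnN j) (hle' hj)
    rwa [mul_inv_cancel_left] at this
  have hDN : ∀ x ∈ decompAt r c, x ∈ N := fun x hx => by
    obtain ⟨i, hi⟩ := hdec _ (mem_decompAt.1 hx)
    have h1 := mul_mem (pow_mem (hn.conj_mem' φ hφN c) i) (hle' hi)
    rw [mul_inv_cancel_left] at h1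
    have h2 := hn.conj_mem _ h1 c
    rwa [show c * (c⁻¹ * x * c) * c⁻¹ = x by group] at h2
  obtain ⟨g', hg', hidx⟩ := exists_map_eq (q := r) σ c⁻¹
  have hφD : φ ∈ decompAt r c := mem_decompAt.2 (by
    rw [range_loc]; exact hφ'.mem_decompositionSubgroup)
  have himg : (σ.e ⟨φ, hle hφN⟩ : GQ) ∈ decompAt r g'⁻¹ :=
    mem_decIn.1 ((hg' _).2 (mem_decIn.2 (by rw [inv_inv]; exact hφD)))
  obtain ⟨i, hi⟩ := hdec _ (mem_decompAt.1 himg)
  obtain ⟨u, hu⟩ : ∃ u, u = g'⁻¹ * c⁻¹ := ⟨_, rfl⟩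
  refine ⟨u, j * (i * k), ?_⟩
  -- everything is a power of `φ` modulo `N'`
  let π : GQ →* GQ ⧸ N' := QuotientGroup.mk' N'
  have hπ : ∀ {a b : GQ}, a⁻¹ * b ∈ N' → π a = π b := fun h => QuotientGroup.eq.2 h
  have h1 : π n = π φ ^ k := by rw [← map_pow]; exact (hπ hks).symm
  have h2 : π φ = π n ^ j := by rw [← map_pow]; exact (hπ hj).symm
  have hpre : (⟨φ, hle hφN⟩ : H) ^ k * (⟨(φ ^ k)⁻¹ * n, hle (hle' hks)⟩ : H) = ⟨n, hle hnN⟩ :=
    Subtype.ext (by
      show φ ^ k * ((φ ^ k)⁻¹ * n) = n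
      rw [mul_inv_cancel_left])
  have h3 : π (σ.e ⟨n, hle hnN⟩ : GQ) = π (σ.e ⟨φ, hle hφN⟩ : GQ) ^ k := by
    rw [← hpre, map_mul, map_pow, Subgroup.coe_mul, Subgroup.coe_pow, map_mul, map_pow,
      show π (σ.e ⟨(φ ^ k)⁻¹ * n, hle (hle' hks)⟩ : GQ) = 1 from (QuotientGroup.eq_one_iff _).2
        ((σ.mem_normal_iff hN' (hle'.trans hle) _).2 hks), mul_one]
  have h4 : π (σ.e ⟨φ, hle hφN⟩ : GQ) = π u * π φ ^ i * (π u)⁻¹ := by
    have h5 := hπ hi
    rw [inv_inv] at h5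
    have e : (σ.e ⟨φ, hle hφN⟩ : GQ)
        = g'⁻¹ * (g' * (σ.e ⟨φ, hle hφN⟩ : GQ) * g'⁻¹) * g' := by group
    have e2 : g'⁻¹ * (c⁻¹ * φ * c) ^ i * g' = u * φ ^ i * u⁻¹ := by
      have h6 : c⁻¹ * φ ^ i * c = (c⁻¹ * φ * c) ^ i := by
        have h7 := conj_pow (a := c⁻¹) (b := φ) (i := i)
        rw [inv_inv] at h7
        exact h7.symm
      rw [← h6, hu]
      group
    rw [e, map_mul, map_mul, ← h5, ← map_mul, ← map_mul, e2, map_mul, map_mul, map_inv, map_pow]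
  refine QuotientGroup.eq.1 ?_
  show π _ = π (u * n ^ (j * (i * k)) * u⁻¹)
  rw [h3, h4, conj_pow, map_mul, map_mul, map_inv, map_pow, ← pow_mul, h2, ← pow_mul]

theorem left_conj_inl {A G : Type} [CommGroup A] [Group G] {φ : G →* MulAut A} (a : A ⋊[φ] G)
    (m : A) : (a * ⟨m, 1⟩ * a⁻¹).left = φ a.right m := by
  simp only [SemidirectProduct.mul_left, SemidirectProduct.mul_right, SemidirectProduct.inv_left,
    mul_one, map_inv, MulAut.apply_inv_self]
  rw [mul_comm a.left, mul_inv_cancel_right]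

/-- The coefficient ring of the test module. -/
abbrev TestRing : Type := Multiplicative (ZMod 5)

theorem testRing_of_two_eq {a b : ZMod 5} (h : 2 * a = b) (h' : 2 * b = a) : b = 0 := by
  revert a b
  decide

set_option maxHeartbeats 800000 in
-- computations in the semidirect product
/-- **Uchida**: modulo a normal level below the source the isomorphism is a conjugation. -/
theorem LevelIso.exists_conj_mod (σ : LevelIso H H') {N : Subgroup GQ} [hn : N.Normal]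
    (hN : N ∈ LQ.carrier) (hle : N ≤ H) :
    ∃ g : GQ, ∀ x : H, (σ.e x : GQ)⁻¹ * (g * x * g⁻¹) ∈ N := by
  classical
  have := LQ.finiteIndex hN
  let ρ : GQ →* GQ ⧸ N := QuotientGroup.mk' N
  obtain ⟨Ψ, hΨs, hΨo, hΨr⟩ := SemidirectGalois.exists_embedding (shiftAut (GQ ⧸ N) TestRing) ρ
    (QuotientGroup.mk'_surjective N) (by
      rw [QuotientGroup.ker_mk']
      exact mem_LQ_iff_isOpen.1 hN)
  have hK : Ψ.ker ∈ LQ.carrier := mem_LQ_iff_isOpen.2 hΨo
  have hKN : Ψ.ker ≤ N := fun x hx => (QuotientGroup.eq_one_iff x).1 (by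
    show ρ x = 1
    rw [← hΨr x, MonoidHom.mem_ker.1 hx]
    rfl)
  -- the induced map on the module
  choose lift hlift using fun m : GQ ⧸ N → TestRing => hΨs ⟨m, 1⟩
  have hliftN : ∀ m, lift m ∈ N := fun m => (QuotientGroup.eq_one_iff _).1 (by
    show ρ (lift m) = 1
    rw [← hΨr, hlift])
  let α : (GQ ⧸ N → TestRing) → (GQ ⧸ N → TestRing) := fun m =>
    (Ψ (σ.e ⟨lift m, hle (hliftN m)⟩ : GQ)).left
  have hα : ∀ x : H, (x : GQ) ∈ N → Ψ (σ.e x : GQ) = ⟨α (Ψ x).left, 1⟩ := fun x hx => by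
    have hx1 : ρ x = 1 := (QuotientGroup.eq_one_iff _).2 hx
    have hright : ∀ y : H, (y : GQ) ∈ N → (Ψ (σ.e y : GQ)).right = 1 := fun y hy => by
      rw [hΨr]
      exact (QuotientGroup.eq_one_iff _).2 ((σ.mem_normal_iff hN hle y).2 hy)
    set m := (Ψ x).left
    have he : Ψ x = Ψ (lift m) := by
      rw [hlift]
      exact SemidirectProduct.ext rfl (by rw [hΨr]; exact hx1)
    have hker : ((⟨lift m, hle (hliftN m)⟩⁻¹ * x : H) : GQ) ∈ Ψ.ker := MonoidHom.mem_ker.2 (by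
      rw [Subgroup.coe_mul, map_mul, InvMemClass.coe_inv, map_inv, he, inv_mul_cancel])
    have h1 := MonoidHom.mem_ker.1 ((σ.mem_normal_iff hK (hKN.trans hle) _).2 hker)
    rw [map_mul, map_inv, Subgroup.coe_mul, map_mul, InvMemClass.coe_inv, map_inv,
      inv_mul_eq_one] at h1
    refine SemidirectProduct.ext ?_ (hright x hx)
    show (Ψ (σ.e x : GQ)).left = (Ψ (σ.e ⟨lift m, hle (hliftN m)⟩ : GQ)).left
    rw [h1]
  have hpow : ∀ (m : GQ ⧸ N → TestRing) (i : ℕ),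
      (⟨m, 1⟩ : (GQ ⧸ N → TestRing) ⋊[shiftAut (GQ ⧸ N) TestRing] (GQ ⧸ N)) ^ i = ⟨m ^ i, 1⟩ :=
    fun m i => (map_pow SemidirectProduct.inl m i).symm
  have hmul : ∀ m m', α (m * m') = α m * α m' := fun m m' => by
    set y : H := ⟨lift m, hle (hliftN m)⟩ * ⟨lift m', hle (hliftN m')⟩
    have hy : (y : GQ) ∈ N := mul_mem (hliftN m) (hliftN m')
    have h1 := hα y hy
    have h2 : (Ψ y).left = m * m' := by
      rw [show (y : GQ) = lift m * lift m' from rfl, map_mul, hlift, hlift]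
      exact SemidirectProduct.mul_left _ _ |>.trans (by rw [map_one]; rfl)
    rw [h2] at h1
    rw [map_mul, Subgroup.coe_mul, map_mul, hα ⟨lift m, hle (hliftN m)⟩ (hliftN m),
      hα ⟨lift m', hle (hliftN m')⟩ (hliftN m'), hlift, hlift] at h1
    have h3 := congrArg SemidirectProduct.left h1
    rw [SemidirectProduct.mul_left, map_one] at h3
    exact h3.symm
  -- the image of each element is a translate of one of its powers
  have hK1 : ∀ m, ∃ (d : GQ ⧸ N) (i : ℕ), α m = shiftAut (GQ ⧸ N) TestRing d (m ^ i) := fun m => by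
    obtain ⟨d, i, hd⟩ := σ.exists_conj_pow (N' := Ψ.ker) hle hK hKN (hliftN m)
    refine ⟨ρ d, i, ?_⟩
    have h1 := MonoidHom.mem_ker.1 hd
    rw [map_mul, map_inv, inv_mul_eq_one, map_mul, map_mul, map_inv, map_pow, hlift, hpow] at h1
    show (Ψ (σ.e ⟨lift m, hle (hliftN m)⟩ : GQ)).left = _
    rw [h1, left_conj_inl, hΨr d]
  -- equivariance
  have hK2 : ∀ (h : H) (m : GQ ⧸ N → TestRing), α (shiftAut (GQ ⧸ N) TestRing (ρ h) m)
      = shiftAut (GQ ⧸ N) TestRing (ρ (σ.e h : GQ)) (α m) := fun h m => by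
    set y : H := h * ⟨lift m, hle (hliftN m)⟩ * h⁻¹
    have hy : (y : GQ) ∈ N := hn.conj_mem _ (hliftN m) _
    have h1 := hα y hy
    have h2 : (Ψ y).left = shiftAut (GQ ⧸ N) TestRing (ρ h) m := by
      rw [show (y : GQ) = h * lift m * (h : GQ)⁻¹ from rfl, map_mul, map_mul, map_inv, hlift,
        left_conj_inl, hΨr]
    rw [h2] at h1
    rw [map_mul, map_mul, map_inv, Subgroup.coe_mul, Subgroup.coe_mul, InvMemClass.coe_inv, map_mul,
      map_mul, map_inv, hα ⟨lift m, hle (hliftN m)⟩ (hliftN m), hlift] at h1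
    have h3 := congrArg SemidirectProduct.left h1
    rw [left_conj_inl, hΨr] at h3
    exact h3.symm
  -- the basis vector at the identity
  set δ : GQ ⧸ N → ZMod 5 → (GQ ⧸ N → TestRing) :=
    fun a c => Pi.mulSingle a (Multiplicative.ofAdd c)
  have hshift : ∀ (d a : GQ ⧸ N) (c : ZMod 5),
      shiftAut (GQ ⧸ N) TestRing d (δ a c) = δ (d * a) c := fun d a c => funext fun x => by
    rw [shiftAut_apply]
    by_cases hx : x = d * a
    · rw [hx, inv_mul_cancel_left]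
      simp [δ]
    · simp only [δ]
      rw [Pi.mulSingle_eq_of_ne hx,
        Pi.mulSingle_eq_of_ne fun h => hx (by rw [← h, mul_inv_cancel_left])]
  have hδpow : ∀ (a : GQ ⧸ N) (c : ZMod 5) (i : ℕ), δ a c ^ i = δ a (i * c) := fun a c i => by
    simp only [δ]
    rw [← Pi.mulSingle_pow, ← ofAdd_nsmul, nsmul_eq_mul]
  obtain ⟨g₀, i₀, hg₀⟩ := hK1 (δ 1 1)
  rw [hδpow, hshift, mul_one] at hg₀
  set k : ZMod 5 := (i₀ : ZMod 5) * 1
  have hα1 : α (δ 1 1) = δ g₀ k := hg₀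
  -- injectivity at the identity
  have hk : k ≠ 0 := fun hk0 => by
    have h2 : Ψ (σ.e ⟨lift (δ 1 1), hle (hliftN _)⟩ : GQ) = 1 := by
      rw [hα ⟨lift (δ 1 1), hle (hliftN _)⟩ (hliftN _), hlift, hα1, hk0]
      exact SemidirectProduct.ext (by simp [δ]) rfl
    have h3 := (σ.mem_normal_iff hK (hKN.trans hle) _).1 (MonoidHom.mem_ker.2 h2)
    rw [MonoidHom.mem_ker, show ((⟨lift (δ 1 1), hle (hliftN _)⟩ : H) : GQ) = lift (δ 1 1) from rfl,
      hlift] at h3
    have h4 := congrFun (congrArg SemidirectProduct.left h3) 1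
    simp [δ] at h4
  obtain ⟨g, hg⟩ := QuotientGroup.mk'_surjective N g₀
  refine ⟨g, fun x => QuotientGroup.eq.1 ?_⟩
  show ρ (σ.e x : GQ) = ρ (g * x * g⁻¹)
  rw [map_mul, map_mul, map_inv, show ρ g = g₀ from hg, eq_mul_inv_iff_mul_eq]
  by_cases hx : (x : GQ) ∈ N
  · rw [show ρ (x : GQ) = 1 from (QuotientGroup.eq_one_iff _).2 hx,
      show ρ (σ.e x : GQ) = 1 from
        (QuotientGroup.eq_one_iff _).2 ((σ.mem_normal_iff hN hle x).2 hx), one_mul, mul_one]
  set a := ρ (x : GQ)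
  set b := ρ (σ.e x : GQ)
  have hb : b * g₀ ≠ g₀ := fun h => hx ((σ.mem_normal_iff hN hle x).1
    ((QuotientGroup.eq_one_iff _).1 (mul_eq_right.1 h)))
  have ha : a ≠ 1 := fun h => hx ((QuotientGroup.eq_one_iff _).1 h)
  -- the test vector
  have htest : α (δ 1 1 * δ a 2) = δ g₀ k * δ (b * g₀) (2 * k) := by
    have hα2 : α (δ 1 2) = δ g₀ (2 * k) := by
      rw [show δ 1 2 = δ 1 1 * δ 1 1 by
        simp only [δ]; rw [← Pi.mulSingle_mul, ← ofAdd_add, one_add_one_eq_two],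
        hmul, hα1]
      simp only [δ]
      rw [← Pi.mulSingle_mul, ← ofAdd_add, two_mul]
    rw [hmul, hα1, show δ a 2 = shiftAut (GQ ⧸ N) TestRing a (δ 1 2) by rw [hshift, mul_one],
      hK2, hα2, hshift]
  obtain ⟨d, i, hdi⟩ := hK1 (δ 1 1 * δ a 2)
  rw [htest, mul_pow, hδpow, hδpow, map_mul, hshift, hshift, mul_one] at hdi
  have hval : ∀ (u v : GQ ⧸ N) (p q : ZMod 5) (y : GQ ⧸ N),
      Multiplicative.toAdd ((δ u p * δ v q) y)
        = (if y = u then p else 0) + if y = v then q else 0 :=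
    fun u v p q y => by
    simp only [δ, Pi.mul_apply, toAdd_mul]
    congr 1 <;> (split_ifs with h <;> simp [h])
  have hev : ∀ y, (if y = g₀ then k else 0) + (if y = b * g₀ then 2 * k else 0)
      = (if y = d then (i : ZMod 5) * 1 else 0) + if y = d * a then (i : ZMod 5) * 2 else 0 :=
    fun y => by rw [← hval, ← hval, hdi]
  have hda : d * a ≠ d := fun h => ha (mul_eq_left.1 h)
  have e1 := hev g₀
  have e2 := hev (b * g₀)
  rw [if_pos rfl, if_neg hb.symm, add_zero] at e1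
  rw [if_neg hb, if_pos rfl, zero_add] at e2
  have h2k : 2 * k ≠ 0 := mul_ne_zero (by decide) hk
  rcases eq_or_ne g₀ d with hd | hd
  · subst hd
    rw [if_neg hb, zero_add] at e2
    rcases eq_or_ne (b * g₀) (g₀ * a) with h | h
    · exact h
    · rw [if_neg h] at e2
      exact absurd e2 h2k
  · rw [if_neg hd, zero_add] at e1
    rcases eq_or_ne g₀ (d * a) with h1 | h1
    swap
    · rw [if_neg h1] at e1
      exact absurd e1 hk
    rw [if_pos h1] at e1
    rcases eq_or_ne (b * g₀) d with h2 | h2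
    swap
    · rw [if_neg h2, zero_add, if_neg (fun h => hb (h.trans h1.symm))] at e2
      exact absurd e2 h2k
    rw [if_pos h2, if_neg (fun h => hb (h.trans h1.symm)), add_zero] at e2
    refine absurd (testRing_of_two_eq (a := (i : ZMod 5)) (b := k) ?_ ?_) hk
    · rw [e1]; ring
    · rw [e2]; ring

/-- A nontrivial element of a level avoids some normal level below it. -/
theorem exists_normal_level_notMem (hH : H ∈ LQ.carrier) {y : GQ} (hy : y ≠ 1) :
    ∃ N ∈ LQ.carrier, N.Normal ∧ N ≤ H ∧ y ∉ N := by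
  obtain ⟨N, hN, hn, hsub⟩ := exists_normal_level_subset
    ((Filter.inter_mem ((isOpen_level hH).mem_nhds (one_mem H))
      (isClosed_singleton.isOpen_compl.mem_nhds fun h => hy (Set.mem_singleton_iff.1 h).symm) :
      (H : Set GQ) ∩ {y}ᶜ ∈ nhds 1))
  exact ⟨N, hN, hn, fun g hg => (hsub hg).1, fun h => (hsub h).2 rfl⟩

/-- **An isomorphism of levels is a conjugation.** -/
theorem LevelIso.exists_conj (σ : LevelIso H H') :
    ∃ g : GQ, ∀ x : H, (σ.e x : GQ) = g * x * g⁻¹ := by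
  classical
  let Idx := {N : Subgroup GQ // N ∈ LQ.carrier ∧ N.Normal ∧ N ≤ H}
  let C : Idx → Set GQ := fun N => {g | ∀ x : H, (σ.e x : GQ)⁻¹ * (g * x * g⁻¹) ∈ N.1}
  have hclosed : ∀ N, IsClosed (C N) := fun N => by
    have := N.2.2.1
    refine isClosed_setOf_of_const N.2.1 fun g s hs => forall_congr' fun x => ?_
    rw [← QuotientGroup.eq_one_iff,
      ← QuotientGroup.eq_one_iff ((σ.e x : GQ)⁻¹ * (g * (x : GQ) * g⁻¹))]
    simp only [QuotientGroup.mk_mul, QuotientGroup.mk_inv, (QuotientGroup.eq_one_iff s).2 hs,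
      mul_one]
  have hne : ∀ N, (C N).Nonempty := fun N => by
    have := N.2.2.1
    exact σ.exists_conj_mod N.2.1 N.2.2.2
  have hdir : Directed (· ⊇ ·) C := fun N M => by
    have := N.2.2.1
    have := M.2.2.1
    exact ⟨⟨N.1 ⊓ M.1, LQ.inf_mem N.2.1 M.2.1, inferInstance, inf_le_left.trans N.2.2.2⟩,
      fun g hg x => (hg x).1, fun g hg x => (hg x).2⟩
  obtain ⟨N₀, hN₀, hle₀, hn₀⟩ := LQ.exists_normal σ.mem₁
  have : Nonempty Idx := ⟨⟨N₀, hN₀, hn₀, hle₀⟩⟩
  obtain ⟨g, hg⟩ := IsCompact.nonempty_iInter_of_directed_nonempty_isCompact_isClosed C hdir hne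
    (fun N => (hclosed N).isCompact) hclosed
  refine ⟨g, fun x => by_contra fun hne' => ?_⟩
  obtain ⟨N, hN, hn, hle, hmem⟩ := exists_normal_level_notMem σ.mem₁
    (y := (σ.e x : GQ)⁻¹ * (g * x * g⁻¹)) fun h => hne' (inv_mul_eq_one.1 h)
  exact hmem (Set.mem_iInter.1 hg ⟨N, hN, hn, hle⟩ x)

theorem eq_one_of_forall_commute (hH : H ∈ LQ.carrier) {u : GQ}
    (h : ∀ x ∈ H, Commute u x) : u = 1 := by
  by_contra hu
  have key : ∀ (r : ℕ) [Fact r.Prime], u ∈ decompAt r 1 := fun r _ => by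
    obtain ⟨a, -, haD, ha1⟩ := exists_mem_wildL_inf (hloc_mem (q := r) hH 1)
    refine mem_decompAt_of_commute (σ := loc r a) (mem_decompAt.2 ⟨a, by group⟩)
      (fun h1 => ha1 (loc_injective (h1.trans (map_one (loc r)).symm))) (h _ ?_)
    simpa using (mem_hloc H).1 haD
  have : Fact (Nat.Prime 2) := ⟨Nat.prime_two⟩
  have : Fact (Nat.Prime 3) := ⟨Nat.prime_three⟩
  exact absurd (eq_of_mem_decompAt (key 2) (key 3) hu).1 (by norm_num)

/-- **The conjugating element is unique.** -/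
theorem LevelIso.existsUnique_conj (σ : LevelIso H H') :
    ∃! g : GQ, ∀ x : H, (σ.e x : GQ) = g * x * g⁻¹ := by
  obtain ⟨g, hg⟩ := σ.exists_conj
  refine ⟨g, hg, fun g' hg' => ?_⟩
  refine (inv_mul_eq_one.1 (eq_one_of_forall_commute σ.mem₁ (u := g⁻¹ * g') fun x hx => ?_)).symm
  show g⁻¹ * g' * x = x * (g⁻¹ * g')
  have h := (hg ⟨x, hx⟩).symm.trans (hg' ⟨x, hx⟩)
  have h' := congrArg (fun y => g⁻¹ * y * g') h
  calc g⁻¹ * g' * x = g⁻¹ * (g' * x * g'⁻¹) * g' := by group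
    _ = g⁻¹ * (g * x * g⁻¹) * g' := h'.symm
    _ = x * (g⁻¹ * g') := by group

/-- The target is the conjugate of the source. -/
theorem LevelIso.mem_target_iff (σ : LevelIso H H') {g : GQ}
    (hg : ∀ x : H, (σ.e x : GQ) = g * x * g⁻¹) (y : GQ) : y ∈ H' ↔ g⁻¹ * y * g ∈ H := by
  refine ⟨fun hy => ?_, fun hy => ?_⟩
  · have h := hg (σ.e.symm ⟨y, hy⟩)
    rw [σ.e.apply_symm_apply] at h
    rw [show y = g * (σ.e.symm ⟨y, hy⟩ : GQ) * g⁻¹ from h]
    simp [mul_assoc]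
  · have h := hg ⟨_, hy⟩
    rw [show g * (g⁻¹ * y * g) * g⁻¹ = y by group] at h
    exact h ▸ SetLike.coe_mem _

end Fermat.Agent.Neukirch
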